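import Fermat.Agent.Two.Class.TwoTorsion
import Fermat.Agent.Two.Flat.Residual
import Mathlib.NumberTheory.LegendreSymbol.JacobiSymbol

/-!
# A transvection on the two-torsion moves the square roots of the discriminant

Consequently `-N` is a nonsquare at the auxiliary primes, `N` the bad level.
-/

set_option autoImplicit false

noncomputable section

open scoped WeierstrassCurve.Affine
open Matrix
open ModularCurve Fermat.Agent.Arith
open Fermat.Agent.EC.Rep

namespace Fermat.Agent.Two.Class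

open Fermat.Agent.Two.Lower

variable {W : WeierstrassCurve ℤ}

/-- The roots fixed by an element acting trivially on the two-torsion. -/
theorem root_fixed_of_tateMod_eq_one [Fact (Nat.Prime 2)] (hΔ : W.Δ ≠ 0) {σ : GQ}
    (hσ : tateMod (p := 2) hΔ 1 σ = 1) :
    ∀ x ∈ (((W.map (Int.castRingHom ℚ)).twoTorsionPolynomial).map
      (algebraMap ℚ (AlgebraicClosure ℚ))).roots, σ x = x := by
  classical
  set E := (W.map (Int.castRingHom ℚ))⁄(AlgebraicClosure ℚ) with hE
  set P : Cubic ℚ := (W.map (Int.castRingHom ℚ)).twoTorsionPolynomial with hP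
  set φ := algebraMap ℚ (AlgebraicClosure ℚ)
  have ha : P.a ≠ 0 := by
    show (4 : ℚ) ≠ 0
    norm_num
  have hb : E.b₂ = (W.b₂ : AlgebraicClosure ℚ) ∧ E.b₄ = (W.b₄ : AlgebraicClosure ℚ) ∧
      E.b₆ = (W.b₆ : AlgebraicClosure ℚ) := by
    refine ⟨?_, ?_, ?_⟩ <;>
      simp [hE, WeierstrassCurve.baseChange, WeierstrassCurve.map_b₂, WeierstrassCurve.map_b₄,
        WeierstrassCurve.map_b₆]
  have hEΔ : E.Δ ≠ 0 := by
    rw [hE]
    show ((W.map (Int.castRingHom ℚ)).map _).Δ ≠ 0
    rw [WeierstrassCurve.map_Δ, WeierstrassCurve.map_Δ, eq_intCast, map_intCast]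
    exact Int.cast_ne_zero.mpr hΔ
  -- each root is fixed
  have hfix : ∀ x ∈ (P.map φ).roots, σ x = x := by
    intro x hx
    rw [Cubic.mem_roots_iff (Cubic.ne_zero_of_a_ne_zero ((map_ne_zero φ).mpr ha))] at hx
    simp only [Cubic.map, hP, WeierstrassCurve.twoTorsionPolynomial, WeierstrassCurve.map_b₂,
      WeierstrassCurve.map_b₄, WeierstrassCurve.map_b₆, eq_intCast, map_intCast, map_mul,
      map_ofNat] at hx
    have hpt : E.toAffine.Equation x (-(E.a₁ * x + E.a₃) / 2) := by
      rw [WeierstrassCurve.Affine.equation_iff]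
      rw [← hb.1, ← hb.2.1, ← hb.2.2, WeierstrassCurve.b₂, WeierstrassCurve.b₄,
        WeierstrassCurve.b₆] at hx
      field_simp
      linear_combination (-1 : AlgebraicClosure ℚ) * hx
    set pt : PtQ W := WeierstrassCurve.Affine.Point.some _ _
      ((E.toAffine.equation_iff_nonsingular_of_Δ_ne_zero hEΔ).mp hpt) with hpt'
    have h2 : (2 : ℤ) • pt = 0 := by
      rw [two_zsmul, add_eq_zero_iff_eq_neg, hpt', WeierstrassCurve.Affine.Point.neg_some]
      simp only [WeierstrassCurve.Affine.Point.some.injEq, WeierstrassCurve.Affine.negY, true_and]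
      show -(E.a₁ * x + E.a₃) / 2 = -(-(E.a₁ * x + E.a₃) / 2) - E.a₁ * x - E.a₃
      ring
    obtain ⟨v, hv⟩ := exists_tateRed_eq (p := 2) hΔ 1 (x := pt) (by rw [pow_one]; exact h2)
    set B := tateBas (p := 2) hΔ
    have hred0 : tateRed hΔ 1 ((tateRep W 2 hΔ).ρ σ v - v) = 0 := by
      refine ((tateBasis W 2 hΔ).red_eq_zero_iff 1 _).mpr ?_
      have hcoord : ∀ i, PadicInt.toZModPow 1 (B.repr ((tateRep W 2 hΔ).ρ σ v - v) i) = 0 := by
        intro i
        have h1 : tateMat (p := 2) hΔ σ *ᵥ (B.repr v) = B.repr ((tateRep W 2 hΔ).ρ σ v) :=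
          LinearMap.toMatrix_mulVec_repr B B _ v
        have h4 := congrFun (congrArg (fun M => M *ᵥ fun i => PadicInt.toZModPow 1 (B.repr v i)) hσ) i
        rw [Matrix.one_mulVec] at h4
        rw [map_sub, Finsupp.sub_apply, map_sub, ← h1, sub_eq_zero]
        exact (RingHom.map_mulVec _ _ _ i).trans h4
      rw [← PadicInt.ker_toZModPow]
      exact ⟨hcoord 0, hcoord 1⟩
    rw [map_sub, red_tateRep, sub_eq_zero, hv] at hred0
    simp only [hpt', WeierstrassCurve.Affine.Point.algEquiv_smul_def,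
      WeierstrassCurve.Affine.Point.map_some, WeierstrassCurve.Affine.Point.some.injEq] at hred0
    exact hred0.1
  exact hfix

theorem sign_of_involution {K : Type*} [CommRing K] (s : K →+* K) {a b c : K} (hab : a ≠ b)
    (hac : a ≠ c) (hbc : b ≠ c) (hinv : ∀ x ∈ ({a, b, c} : Set K), s (s x) = x)
    (hmem : ∀ x ∈ ({a, b, c} : Set K), s x ∈ ({a, b, c} : Set K))
    (hne : ∃ x ∈ ({a, b, c} : Set K), s x ≠ x) :
    s ((a - b) * (a - c) * (b - c)) = -((a - b) * (a - c) * (b - c)) := by
  have ha := hinv a (by simp)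
  have hb := hinv b (by simp)
  have hc := hinv c (by simp)
  have inj : ∀ x y, s (s x) = x → s (s y) = y → s x = s y → x = y := fun x y hx hy h => by
    rw [← hx, h, hy]
  have hmb : s b = a ∨ s b = b ∨ s b = c := by simpa using hmem b (by simp)
  have hmc : s c = a ∨ s c = b ∨ s c = c := by simpa using hmem c (by simp)
  obtain ha' | ha' | ha' : s a = a ∨ s a = b ∨ s a = c := by simpa using hmem a (by simp)
  · have hb' : s b = c := by
      rcases hmb with h | h | h
      · exact absurd (inj b a hb ha (h.trans ha'.symm)) hab.symm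
      · exfalso
        have hc' : s c = c := by
          rcases hmc with h' | h' | h'
          · exact absurd (inj c a hc ha (h'.trans ha'.symm)) hac.symm
          · exact absurd (inj c b hc hb (h'.trans h.symm)) hbc.symm
          · exact h'
        obtain ⟨x, hx, hxne⟩ := hne
        rcases hx with rfl | rfl | rfl <;> contradiction
      · exact h
    have hc' : s c = b := by rw [← hb', hb]
    simp only [map_mul, map_sub, ha', hb', hc']
    ring
  · have hb' : s b = a := by rw [← ha', ha]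
    have hc' : s c = c := by
      rcases hmc with h' | h' | h'
      · exact absurd (inj c b hc hb (h'.trans hb'.symm)) hbc.symm
      · exact absurd (inj c a hc ha (h'.trans ha'.symm)) hac.symm
      · exact h'
    simp only [map_mul, map_sub, ha', hb', hc']
    ring
  · have hc' : s c = a := by rw [← ha', ha]
    have hb' : s b = b := by
      rcases hmb with h' | h' | h'
      · exact absurd (inj b c hb hc (h'.trans hc'.symm)) hbc
      · exact h'
      · exact absurd (inj b a hb ha (h'.trans ha'.symm)) hab.symm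
    simp only [map_mul, map_sub, ha', hb', hc']
    ring

theorem two_matrix_eq_zero : (2 : Matrix (Fin 2) (Fin 2) (ZMod (2 ^ 1))) = 0 := by decide

/-- **A transvection moves the square roots of the discriminant.** -/
theorem apply_sqrt_eq_neg [Fact (Nat.Prime 2)] (hΔ : W.Δ ≠ 0) {σ : GQ}
    (hsq : (tateMod (p := 2) hΔ 1 σ - 1) * (tateMod (p := 2) hΔ 1 σ - 1) = 0)
    (hne : tateMod (p := 2) hΔ 1 σ ≠ 1) {y : AlgebraicClosure ℚ}
    (hy : y ^ 2 = (W.Δ : AlgebraicClosure ℚ)) : σ y = -y := by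
  classical
  set M := tateMod (p := 2) hΔ 1 σ with hM
  set P : Cubic ℚ := (W.map (Int.castRingHom ℚ)).twoTorsionPolynomial with hP
  set φ := algebraMap ℚ (AlgebraicClosure ℚ)
  have ha : P.a ≠ 0 := by
    show (4 : ℚ) ≠ 0
    norm_num
  obtain ⟨e₁, e₂, e₃, h3⟩ := (Cubic.splits_iff_roots_eq_three (φ := φ) ha).mp
    (IsAlgClosed.splits _)
  have hD : φ P.discr = 16 * (W.Δ : AlgebraicClosure ℚ) := by
    rw [hP, WeierstrassCurve.twoTorsionPolynomial_discr, WeierstrassCurve.map_Δ, eq_intCast,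
      map_mul, map_ofNat, map_intCast]
  have hdisc : P.discr ≠ 0 := fun h => by
    rw [h, map_zero] at hD
    exact mul_ne_zero (by norm_num) (Int.cast_ne_zero.mpr hΔ) hD.symm
  obtain ⟨h12, h13, h23⟩ := (Cubic.discr_ne_zero_iff_roots_ne ha h3).mp hdisc
  have hroot : ∀ x, x ∈ ({e₁, e₂, e₃} : Set (AlgebraicClosure ℚ)) ↔
      4 * x ^ 3 + (W.b₂ : AlgebraicClosure ℚ) * x ^ 2 + 2 * (W.b₄ : AlgebraicClosure ℚ) * x +
        (W.b₆ : AlgebraicClosure ℚ) = 0 := by
    intro x
    have h1 := Cubic.mem_roots_iff (Cubic.ne_zero_of_a_ne_zero (P := P.map φ)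
      ((map_ne_zero φ).mpr ha)) x
    rw [h3] at h1
    simp only [Cubic.map, hP, WeierstrassCurve.twoTorsionPolynomial, WeierstrassCurve.map_b₂,
      WeierstrassCurve.map_b₄, WeierstrassCurve.map_b₆, eq_intCast, map_intCast, map_mul,
      map_ofNat] at h1
    rw [← h1]
    simp
  have h2 : tateMod (p := 2) hΔ 1 (σ * σ) = 1 := by
    rw [map_mul, ← hM]
    have h2z := two_matrix_eq_zero
    linear_combination (norm := noncomm_ring) hsq + h2z * (M - 1)
  have hinv : ∀ x ∈ ({e₁, e₂, e₃} : Set (AlgebraicClosure ℚ)), σ (σ x) = x := fun x hx =>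
    root_fixed_of_tateMod_eq_one hΔ h2 x (by rw [h3]; simpa using hx)
  have hmem : ∀ x ∈ ({e₁, e₂, e₃} : Set (AlgebraicClosure ℚ)),
      σ x ∈ ({e₁, e₂, e₃} : Set (AlgebraicClosure ℚ)) := fun x hx => by
    refine (hroot _).mpr ?_
    simpa [map_ofNat] using congrArg σ ((hroot x).mp hx)
  have hmove : ∃ x ∈ ({e₁, e₂, e₃} : Set (AlgebraicClosure ℚ)), σ x ≠ x := by
    set B := tateBas (p := 2) hΔ
    obtain ⟨w, hw⟩ : ∃ w, M *ᵥ w ≠ w := by
      by_contra h
      simp only [not_exists, not_not] at h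
      exact hne (Matrix.toLin'.injective (LinearMap.ext fun w => by simpa using h w))
    choose c hc using fun i => ZMod.ringHom_surjective (PadicInt.toZModPow 1 : ℤ_[2] →+* _) (w i)
    obtain ⟨v, hv⟩ : ∃ v, (fun i => PadicInt.toZModPow 1 (B.repr v i)) = w :=
      ⟨B.equivFun.symm c, funext fun i => by
        rw [← B.equivFun_apply, LinearEquiv.apply_symm_apply]; exact hc i⟩
    have hred0 : ∀ z, tateRed hΔ 1 z = 0 ↔
        (fun i => PadicInt.toZModPow 1 (B.repr z i)) = 0 := by
      intro z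
      refine ((tateBasis W 2 hΔ).red_eq_zero_iff 1 z).trans ?_
      rw [← PadicInt.ker_toZModPow, funext_iff, Fin.forall_fin_two, RingHom.mem_ker,
        RingHom.mem_ker]
      rfl
    have hrepr : (fun i => PadicInt.toZModPow 1 (B.repr ((tateRep W 2 hΔ).ρ σ v) i)) = M *ᵥ w := by
      rw [← hv]
      have h1 : tateMat (p := 2) hΔ σ *ᵥ (B.repr v) = B.repr ((tateRep W 2 hΔ).ρ σ v) :=
        LinearMap.toMatrix_mulVec_repr B B _ v
      funext i
      rw [← h1]
      exact RingHom.map_mulVec _ _ _ i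
    have hmv : σ • tateRed hΔ 1 v ≠ tateRed hΔ 1 v := fun h => hw (by
      rw [← red_tateRep, ← sub_eq_zero, ← map_sub, hred0] at h
      rw [← hrepr, ← hv]
      refine sub_eq_zero.mp (Eq.trans ?_ h)
      funext i
      simp)
    obtain ⟨e, he, hiff⟩ := Flat.point_root W (tateRed hΔ 1 v)
      (fun h0 => hmv (by rw [h0]; rfl)) (by simpa using pow_smul_tateRed (p := 2) hΔ 1 v)
    exact ⟨e, (hroot e).mpr he, fun h => hmv ((hiff σ).mpr h)⟩
  have key : σ ((e₁ - e₂) * (e₁ - e₃) * (e₂ - e₃)) = -((e₁ - e₂) * (e₁ - e₃) * (e₂ - e₃)) :=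
    sign_of_involution (σ : AlgebraicClosure ℚ ≃+* AlgebraicClosure ℚ).toRingHom h12 h13 h23 hinv
      hmem hmove
  rw [Cubic.discr_eq_prod_three_roots ha h3, show φ P.a = 4 from map_ofNat φ 4] at hD
  have hy2 : y ^ 2 = (4 * ((e₁ - e₂) * (e₁ - e₃) * (e₂ - e₃))) ^ 2 := by
    rw [hy]
    linear_combination (-1 / 16 : AlgebraicClosure ℚ) * hD
  rcases sq_eq_sq_iff_eq_or_eq_neg.mp hy2 with rfl | rfl <;>
    simp only [map_neg, map_mul, map_ofNat, key, mul_neg]

end Fermat.Agent.Two.Class
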