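import Fermat.Agent.Two.Interface
import Fermat.Agent.Arith.Frobenius
import Fermat.Agent.Arith.Places
import Mathlib.FieldTheory.Galois.Infinite
import Mathlib.NumberTheory.LegendreSymbol.Basic

/-!
# The subgroup fixing the square roots of the discriminant
-/

set_option autoImplicit false

noncomputable section

namespace Fermat.Agent.Two.Class

open Fermat.Agent.Arith Fermat.Agent.Deform

local notation "Q̄" => AlgebraicClosure ℚ

variable {W : WeierstrassCurve ℤ}

theorem exists_sqrt (W : WeierstrassCurve ℤ) : ∃ y : Q̄, y ^ 2 = (W.Δ : Q̄) :=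
  IsAlgClosed.exists_pow_nat_eq _ two_pos

theorem mem_galK_iff {σ : Gal} : σ ∈ galK W ↔ ∀ y : Q̄, y ^ 2 = (W.Δ : Q̄) → σ y = y := by
  refine ⟨fun h y hy => h ⟨y, IntermediateField.subset_adjoin ℚ _ hy⟩, fun h => ?_⟩
  rintro ⟨x, hx⟩
  induction hx using IntermediateField.adjoin_induction with
  | mem x hx => exact h x hx
  | algebraMap q => exact AlgEquiv.commutes σ q
  | add x y _ _ hx hy => exact (map_add σ x y).trans (congrArg₂ (· + ·) hx hy)
  | inv x _ hx => exact (map_inv₀ σ x).trans (congrArg _ hx)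
  | mul x y _ _ hx hy => exact (map_mul σ x y).trans (congrArg₂ (· * ·) hx hy)

instance normal_galK (W : WeierstrassCurve ℤ) : (galK W).Normal :=
  ⟨fun σ hσ g => mem_galK_iff.mpr fun y hy => by
    rw [AlgEquiv.mul_apply, AlgEquiv.mul_apply,
      mem_galK_iff.mp hσ (g⁻¹ y) (by rw [← map_pow, hy, map_intCast]), ← AlgEquiv.mul_apply,
      mul_inv_cancel, AlgEquiv.one_apply]⟩

theorem exists_notMem_galK (hΔ : W.Δ < 0) : ∃ g : Gal, g ∉ galK W := by
  by_contra h
  push Not at h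
  obtain ⟨y, hy⟩ := exists_sqrt W
  obtain ⟨q, rfl⟩ := (InfiniteGalois.mem_range_algebraMap_iff_fixed y).mpr
    fun σ => mem_galK_iff.mp (h σ) y hy
  rw [← map_pow, ← map_intCast (algebraMap ℚ Q̄)] at hy
  have := (algebraMap ℚ Q̄).injective hy
  have h0 : (0 : ℚ) ≤ q ^ 2 := sq_nonneg q
  rw [this] at h0
  exact absurd (by exact_mod_cast h0 : (0 : ℤ) ≤ W.Δ) (not_le.mpr hΔ)

variable {ℓ : ℕ} {P : ValuationSubring Q̄} {φ : Gal}

/-- A Frobenius at a prime of good reduction other than two fixes the square roots of the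
discriminant exactly when the discriminant is a square modulo it. -/
theorem mem_galK_iff_isSquare (hℓ : ℓ.Prime) (hℓ2 : ℓ ≠ 2) (hgood : W.IsGoodPrimeFor ℓ)
    (hP : P.LiesOverPrime ℓ) (hφ : P.IsFrobeniusAt φ ℓ) :
    φ ∈ galK W ↔ IsSquare (W.Δ : ZMod ℓ) := by
  have := Fact.mk hℓ
  have hΔ0 : (W.Δ : ZMod ℓ) ≠ 0 := by rwa [Ne, ZMod.intCast_zmod_eq_zero_iff_dvd]
  rw [ZMod.euler_criterion ℓ hΔ0]
  obtain ⟨y, hy⟩ := exists_sqrt W
  have hint : IsIntegral ℤ y := IsIntegral.of_pow two_pos (hy ▸ isIntegral_algebraMap)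
  have hy0 : y ≠ 0 := fun h => by
    rw [h, zero_pow two_ne_zero, eq_comm, Int.cast_eq_zero] at hy
    exact hgood (hy ▸ dvd_zero _)
  have hpow : y ^ ℓ = ((W.Δ ^ (ℓ / 2) : ℤ) : Q̄) * y := by
    conv_lhs => rw [← Nat.div_add_mod ℓ 2, (hℓ.eq_two_or_odd.resolve_left hℓ2), pow_succ, pow_mul,
      hy]
    push_cast
    rfl
  have hsign : φ y = y ∨ φ y = -y := by
    have : φ y * φ y = y * y := by
      rw [← map_mul, ← pow_two, hy, map_intCast, ← hy, pow_two]
    exact mul_self_eq_mul_self_iff.mp this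
  -- congruence `φ y ≡ y ^ ℓ` against the square of the unit `y`
  have key : ∀ e : ℤ, φ y = e * y → (e : ZMod ℓ) = (W.Δ : ZMod ℓ) ^ (ℓ / 2) := fun e he => by
    have h := (isFrobeniusAt_iff hP hℓ).mp hφ y hint
    rw [he, hpow, ← sub_mul] at h
    have h' : (((e - W.Δ ^ (ℓ / 2)) * W.Δ : ℤ) : Q̄) ∈ P.nonunits := by
      have e1 : (((e - W.Δ ^ (ℓ / 2)) * W.Δ : ℤ) : Q̄) =
          (e - ((W.Δ ^ (ℓ / 2) : ℤ) : Q̄)) * y * y := by
        rw [mul_assoc, ← pow_two, hy]; push_cast; ring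
      rw [e1]
      exact nonunits_mul_right h (mem_of_isIntegral P hint)
    rw [intCast_mem_nonunits_iff hP hℓ, ← ZMod.intCast_zmod_eq_zero_iff_dvd] at h'
    push_cast at h'
    exact sub_eq_zero.mp ((mul_eq_zero.mp h').resolve_right hΔ0)
  constructor
  · intro h
    have := key 1 (by rw [Int.cast_one, one_mul, mem_galK_iff.mp h y hy])
    rwa [Int.cast_one, eq_comm] at this
  · intro h
    have hfix : φ y = y := hsign.resolve_right fun hn => by
      have h1 := key (-1) (by rw [Int.cast_neg, Int.cast_one, neg_one_mul, hn])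
      rw [h, Int.cast_neg, Int.cast_one] at h1
      have : Fact (2 < ℓ) := ⟨lt_of_le_of_ne hℓ.two_le (Ne.symm hℓ2)⟩
      exact ZMod.neg_one_ne_one h1
    refine mem_galK_iff.mpr fun z hz => ?_
    rcases mul_self_eq_mul_self_iff.mp (show z * z = y * y by rw [← pow_two, ← pow_two, hz, hy])
      with rfl | rfl
    · exact hfix
    · rw [map_neg, hfix]

end Fermat.Agent.Two.Class

end
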