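import Fermat.Agent.Two.Class.Density
import Fermat.Agent.Two.Class.Quad

/-!
# The parity of the trace on `galK`

On `galK` the image on the two-torsion consists of the identity and the elements with odd trace,
and every element with odd trace lies in `galK`.
-/

set_option autoImplicit false

noncomputable section

namespace Fermat.Agent.Two.Class

open Fermat.Agent.Arith Fermat.Agent.Two.Lower

/-- Two nontrivial matrices of even trace multiply to the identity or to one of odd trace. -/
theorem mul_even_trace : ∀ X Y : Matrix (Fin 2) (Fin 2) (ZMod (2 ^ 1)), X.det = 1 → Y.det = 1 →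
    X ≠ 1 → X.trace ≠ 1 → Y.trace ≠ 1 → Y = 1 ∨ X * Y = 1 ∨ (X * Y).trace = 1 := by
  decide

/-- The trace of a square, modulo two. -/
theorem trace_sq_two : ∀ X : Matrix (Fin 2) (Fin 2) (ZMod (2 ^ 1)),
    (X * X).trace = X.trace := by
  decide

variable {W : WeierstrassCurve ℤ}

section parity

variable [Fact (Nat.Prime 2)] (hΔ : W.Δ ≠ 0)

theorem det_tateMod_one (σ : GQ) : (tateMod (p := 2) hΔ 1 σ).det = 1 :=
  eq_one_of_isUnit_two _
    ((Matrix.isUnit_iff_isUnit_det _).mp ((Group.isUnit σ).map (tateMod (p := 2) hΔ 1)))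

/-- An element with odd trace fixes the square roots of the discriminant. -/
theorem mem_galK_of_trace {σ : GQ} (hσ : (tateMod (p := 2) hΔ 1 σ).trace = 1) : σ ∈ galK W := by
  have h3 : σ ^ 3 ∈ galK W := mem_galK_of_tateMod_eq_one hΔ (by
    rw [map_pow, (cube_of_trace _ (det_tateMod_one hΔ σ) hσ).1])
  rwa [pow_succ' _ 2, (galK W).mul_mem_cancel_right (sq_mem_galK σ)] at h3

/-- The powers of two preserve the parity of the trace. -/
theorem trace_two_pow (σ : GQ) :
    ∀ j : ℕ, (tateMod (p := 2) hΔ 1 (σ ^ 2 ^ j)).trace = (tateMod (p := 2) hΔ 1 σ).trace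
  | 0 => congrArg (fun τ : GQ => (tateMod (p := 2) hΔ 1 τ).trace) (by simp)
  | j + 1 => by
    have e : σ ^ 2 ^ (j + 1) = σ ^ 2 ^ j * σ ^ 2 ^ j := by
      rw [← pow_add, pow_succ, mul_two]
    exact ((congrArg (fun τ : GQ => (tateMod (p := 2) hΔ 1 τ).trace) e).trans
      ((congrArg Matrix.trace (map_mul (tateMod (p := 2) hΔ 1) _ _)).trans (trace_sq_two _))).trans
      (trace_two_pow σ j)

end parity

variable [Fact (Nat.Prime 2)]

/-- Some element has odd trace. -/
theorem exists_trace_eq_one (hW : TwoCurve W) :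
    ∃ g : GQ, (tateMod (p := 2) hW.Δ_ne_zero 1 g).trace = 1 := by
  by_contra hall
  set r := tateMod (p := 2) hW.Δ_ne_zero 1
  have hle : Submodule.span (ZMod (2 ^ 1)) (Set.range r) ≤
      LinearMap.ker (Matrix.traceLinearMap (Fin 2) (ZMod (2 ^ 1)) (ZMod (2 ^ 1))) := by
    rw [Submodule.span_le]
    rintro _ ⟨g, rfl⟩
    exact eq_zero_of_ne_one_two _ fun h1 => hall ⟨g, h1⟩
  rw [span_tateMod_one hW, top_le_iff, LinearMap.ker_eq_top] at hle
  have := LinearMap.congr_fun hle (Matrix.single 0 0 1)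
  simp at this

/-- An element of `galK` acts trivially on the two-torsion or has odd trace. -/
theorem eq_one_or_trace_eq_one (hW : TwoCurve W) {σ : GQ} (hσ : σ ∈ galK W) :
    tateMod (p := 2) hW.Δ_ne_zero 1 σ = 1 ∨ (tateMod (p := 2) hW.Δ_ne_zero 1 σ).trace = 1 := by
  by_contra h
  rw [not_or] at h
  obtain ⟨g, hg⟩ := exists_notMem_galK hW.Δ_neg
  have hg' : (tateMod (p := 2) hW.Δ_ne_zero 1 g).trace ≠ 1 := fun e =>
    hg (mem_galK_of_trace _ e)
  rcases mul_even_trace _ _ (det_tateMod_one _ σ) (det_tateMod_one _ g) h.1 h.2 hg' with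
    e | e | e
  · exact hg (mem_galK_of_tateMod_eq_one _ e)
  · rw [← map_mul] at e
    exact hg (((galK W).mul_mem_cancel_left hσ).mp (mem_galK_of_tateMod_eq_one _ e))
  · rw [← map_mul] at e
    exact hg (((galK W).mul_mem_cancel_left hσ).mp (mem_galK_of_trace _ e))

end Fermat.Agent.Two.Class

end
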