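import Fermat.Agent.Two.Class.BoundNorm
import Fermat.Agent.Two.Class.BoundBasic
import Fermat.Agent.Two.Basic.Quad
import Mathlib.GroupTheory.FiniteAbelian.Duality
import Mathlib.RingTheory.IntegralDomain

/-!
# Unramified dihedral quotients are bounded by the class group

Given the class map `e` of `galK W`, every unramified character `χ` of `galK W` of two-power order
`n`, stable under the dihedral action, factors through `e`: on the kernel of `χ` the values of `e`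
are norms of classes from the field `M` cut out by `χ`, these norms have index at least `n`, and
`e` is onto the two-part of the class group.
-/

set_option autoImplicit false

noncomputable section

namespace Fermat.Agent.Two.Class

open NumberField
open Fermat.Agent.Arith Fermat.Agent.ClassField Fermat.Agent.Two.Lower
open scoped NumberField nonZeroDivisors

variable {W : WeierstrassCurve ℤ}

local notation "Kf" => quadField W
local notation "Cl" => ClassGroup (𝓞 (quadField W))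
local notation "mOdd" => Nat.card (ClassGroup (𝓞 (quadField W))) / classTwo W

/-- An element is a product of powers of its `n`-th and `m`-th powers, for coprime `n` and `m`. -/
theorem exists_zpow_split {G : Type*} [CommGroup G] {n m : ℕ} (h : n.Coprime m) (c : G) :
    ∃ x y : ℤ, c = (c ^ n) ^ x * (c ^ m) ^ y := by
  obtain ⟨x, y, hxy⟩ := Int.isCoprime_iff_nat_coprime.mpr
    (show (Int.natAbs (n : ℤ)).Coprime (Int.natAbs (m : ℤ)) from h)
  refine ⟨x, y, ?_⟩
  rw [← zpow_natCast, ← zpow_natCast c m, ← zpow_mul, ← zpow_mul, ← zpow_add,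
    mul_comm (n : ℤ) x, mul_comm (m : ℤ) y, hxy, zpow_one]

/-- The two-part of the class group has at most `classTwo W` elements. -/
theorem card_range_pow_le :
    Nat.card (powMonoidHom (α := Cl) mOdd).range ≤ classTwo W := by
  have : Fact (Nat.Prime 2) := ⟨Nat.prime_two⟩
  set R := (powMonoidHom (α := Cl) mOdd).range
  have hp : IsPGroup 2 R := by
    intro x
    obtain ⟨c, hc⟩ := x.2
    refine ⟨padicValNat 2 (Nat.card Cl), Subtype.ext ?_⟩
    show (x : Cl) ^ classTwo W = 1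
    rw [← hc, powMonoidHom_apply, ← pow_mul,
      show mOdd * classTwo W = Nat.card Cl from Nat.div_mul_cancel pow_padicValNat_dvd]
    exact pow_card_eq_one'
  obtain ⟨k, hk⟩ := IsPGroup.iff_card.mp hp
  rw [hk, classTwo]
  exact Nat.pow_le_pow_right two_pos
    ((padicValNat_dvd_iff_le Nat.card_pos.ne').mp (hk ▸ Subgroup.card_subgroup_dvd_card R))

theorem not_two_dvd_mOdd : ¬ 2 ∣ mOdd := by
  intro h
  have h1 := Nat.mul_dvd_mul_left (classTwo W) h
  rw [show classTwo W * mOdd = Nat.card Cl from Nat.mul_div_cancel' pow_padicValNat_dvd] at h1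
  have : Fact (Nat.Prime 2) := ⟨Nat.prime_two⟩
  refine pow_succ_padicValNat_not_dvd (p := 2) (Nat.card_pos (α := Cl)).ne' ?_
  rwa [classTwo, ← pow_succ] at h1

variable [Fact (Nat.Prime 2)]

/-- The class of the prime at a place, as a nonzero ideal. -/
def primeAt {ℓ : ℕ} (hℓ : ℓ.Prime) {A : ValuationSubring QBar} (hA : A.LiesOverPrime ℓ) :
    (Ideal (𝓞 Kf))⁰ :=
  ⟨centreAt A Kf, mem_nonZeroDivisors_of_ne_zero (centreAt_ne_bot hA hℓ)⟩

variable {e : galK W →* ClassGroup (𝓞 (quadField W))}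

/-- The defining property of the class map. -/
def IsClassVal (e : galK W →* Cl) : Prop :=
  ∀ ℓ : ℕ, ℓ.Prime → ℓ ≠ 2 → W.IsGoodPrimeFor ℓ → ¬ (2 : ℤ) ∣ W.apOfModel ℓ →
    ∀ P : ValuationSubring QBar, P.LiesOverPrime ℓ → ∀ φ : galK W, P.IsFrobeniusAt (φ : GQ) ℓ →
      ∀ I : (Ideal (𝓞 Kf))⁰, (I : Ideal (𝓞 Kf)).IsPrime →
        (ℓ : 𝓞 Kf) ∈ (I : Ideal (𝓞 Kf)) →
        e φ = ClassGroup.mk0 I ^ mOdd ∨ e φ = (ClassGroup.mk0 I ^ mOdd)⁻¹

/-- A subgroup `T` containing the class of the prime at every Frobenius lying in `H` with odd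
trace contains `e σ` for every `σ` of odd trace in `H`. -/
theorem mem_of_trace (hW : TwoCurve W) (he : IsClassVal e) {L : IntermediateField ℚ QBar}
    [FiniteDimensional ℚ L] (heL : ∀ σ : galK W, (∀ x ∈ L, (σ : GQ) x = x) → e σ = 1)
    {H : Subgroup GQ} (hH : L.fixingSubgroup ≤ H) {T : Subgroup Cl}
    (hT : ∀ ℓ : ℕ, ∀ hℓ : ℓ.Prime, ∀ A : ValuationSubring QBar, ∀ hA : A.LiesOverPrime ℓ,
      ∀ φ : GQ, A.IsFrobeniusAt φ ℓ → φ ∈ H → φ ∈ galK W →
        ClassGroup.mk0 (primeAt (W := W) hℓ hA) ^ mOdd ∈ T)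
    {σ : galK W} (hσH : (σ : GQ) ∈ H)
    (hσ : (tateMod (p := 2) hW.Δ_ne_zero 1 σ).trace = 1) : e σ ∈ T := by
  classical
  have hΔ := hW.Δ_ne_zero
  obtain ⟨L₂, hL₂, hL₂r⟩ := finite_level_tateMod (p := 2) hΔ 1
  obtain ⟨ℓ, hℓ, hℓS, A, hA, φ, hφ, hfix⟩ :=
    exists_frobenius_fix (L ⊔ (Kf ⊔ L₂)) (σ : GQ) (insert 2 W.Δ.natAbs.primeFactors)
  simp only [Finset.mem_insert, not_or] at hℓS
  have hgood : W.IsGoodPrimeFor ℓ := fun hd => hℓS.2
    (Nat.mem_primeFactors.mpr ⟨hℓ, Int.natCast_dvd.mp hd, Int.natAbs_ne_zero.mpr hΔ⟩)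
  set d : GQ := (σ : GQ)⁻¹ * φ with hd
  have hdK : d ∈ galK W := (IntermediateField.mem_fixingSubgroup_iff _ _).mpr fun x hx =>
    hfix x ((le_sup_right : Kf ⊔ L₂ ≤ L ⊔ (Kf ⊔ L₂)) ((le_sup_left : Kf ≤ Kf ⊔ L₂) hx))
  have hdr : tateMod (p := 2) hΔ 1 d = 1 := hL₂r _ fun x hx =>
    hfix x ((le_sup_right : Kf ⊔ L₂ ≤ L ⊔ (Kf ⊔ L₂)) ((le_sup_right : L₂ ≤ Kf ⊔ L₂) hx))
  have hdL : ∀ x ∈ L, d x = x := fun x hx => hfix x ((le_sup_left : L ≤ L ⊔ (Kf ⊔ L₂)) hx)
  have hφe : φ = (σ : GQ) * d := by rw [hd, mul_inv_cancel_left]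
  have hφK : φ ∈ galK W := hφe ▸ mul_mem σ.2 hdK
  have htr : (tateMod (p := 2) hΔ 1 φ).trace = 1 := by
    rw [hφe, map_mul, hdr, mul_one]
    exact hσ
  have hodd : ¬ (2 : ℤ) ∣ W.apOfModel ℓ := fun hdvd => by
    rw [(frobenius_tateMod (p := 2) hΔ 1 hℓ hgood hℓS.1 hA hφ).1,
      (ZMod.intCast_zmod_eq_zero_iff_dvd _ _).mpr (by simpa using hdvd)] at htr
    exact zero_ne_one htr
  have heq : e σ = e ⟨φ, hφK⟩ := by
    have e1 : (⟨φ, hφK⟩ : galK W) = σ * ⟨d, hdK⟩ := Subtype.ext hφe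
    rw [e1, map_mul, heL ⟨d, hdK⟩ hdL, mul_one]
  have hmem := hT ℓ hℓ A hA φ hφ
    (hφe ▸ mul_mem hσH (hH ((IntermediateField.mem_fixingSubgroup_iff _ _).mpr hdL))) hφK
  rcases he ℓ hℓ hℓS.1 hgood hodd A hA ⟨φ, hφK⟩ hφ (primeAt hℓ hA)
    (centreAt_isPrime A Kf) (natCast_mem_centreAt hA) with h | h
  · rw [heq, h]; exact hmem
  · rw [heq, h]; exact inv_mem hmem

/-- The same for all of `H`, when `H` has an element of odd trace. -/
theorem mem_of_mem (hW : TwoCurve W) (he : IsClassVal e) {L : IntermediateField ℚ QBar}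
    [FiniteDimensional ℚ L] (heL : ∀ σ : galK W, (∀ x ∈ L, (σ : GQ) x = x) → e σ = 1)
    {H : Subgroup GQ} (hH : L.fixingSubgroup ≤ H) {T : Subgroup Cl}
    (hT : ∀ ℓ : ℕ, ∀ hℓ : ℓ.Prime, ∀ A : ValuationSubring QBar, ∀ hA : A.LiesOverPrime ℓ,
      ∀ φ : GQ, A.IsFrobeniusAt φ ℓ → φ ∈ H → φ ∈ galK W →
        ClassGroup.mk0 (primeAt (W := W) hℓ hA) ^ mOdd ∈ T)
    {g : galK W} (hgH : (g : GQ) ∈ H)
    (hg : (tateMod (p := 2) hW.Δ_ne_zero 1 g).trace = 1)
    {σ : galK W} (hσH : (σ : GQ) ∈ H) : e σ ∈ T := by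
  rcases eq_one_or_trace_eq_one hW σ.2 with h | h
  · have h2 : e (g * σ) ∈ T := mem_of_trace hW he heL hH hT (mul_mem hgH hσH) (by
      rw [Subgroup.coe_mul, map_mul, h, mul_one]
      exact hg)
    rw [map_mul] at h2
    exact (T.mul_mem_cancel_left (mem_of_trace hW he heL hH hT hgH hg)).mp h2
  · exact mem_of_trace hW he heL hH hT hσH h

/-- The class map is onto the two-part of the class group. -/
theorem range_classVal (hW : TwoCurve W) (he : IsClassVal e) {L : IntermediateField ℚ QBar}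
    [FiniteDimensional ℚ L] (heL : ∀ σ : galK W, (∀ x ∈ L, (σ : GQ) x = x) → e σ = 1) :
    e.range = (powMonoidHom (α := Cl) mOdd).range := by
  refine le_antisymm ?_ ?_
  · rintro _ ⟨σ, rfl⟩
    obtain ⟨g, hg⟩ := exists_trace_eq_one hW
    exact mem_of_mem hW he heL (H := ⊤) le_top (T := (powMonoidHom (α := Cl) mOdd).range)
      (fun ℓ hℓ A hA φ _ _ _ => ⟨_, rfl⟩) (g := ⟨g, mem_galK_of_trace _ hg⟩) trivial hg trivial
  rintro _ ⟨c, rfl⟩
  rw [powMonoidHom_apply]
  -- the classes whose `mOdd`-th power is a value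
  set B : Subgroup Cl := e.range.comap (powMonoidHom mOdd)
  have hB : ∀ ℓ : ℕ, ℓ.Prime → ℓ ≠ 2 → W.IsGoodPrimeFor ℓ → ℓ ∉ (∅ : Finset ℕ) →
      ¬ (2 : ℤ) ∣ W.apOfModel ℓ → ∀ I : (Ideal (𝓞 Kf))⁰, (I : Ideal (𝓞 Kf)).IsPrime →
        (ℓ : 𝓞 Kf) ∈ (I : Ideal (𝓞 Kf)) → ClassGroup.mk0 I ∈ B := by
    intro ℓ hℓ hℓ2 hgood _ hodd I hI hmem
    obtain ⟨A, hA⟩ := exists_liesOverPrime hℓ
    obtain ⟨φ, hφ⟩ := exists_isFrobeniusAt hA hℓ
    have htr : (tateMod (p := 2) hW.Δ_ne_zero 1 φ).trace = 1 := by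
      rw [(frobenius_tateMod (p := 2) hW.Δ_ne_zero 1 hℓ hgood hℓ2 hA hφ).1]
      by_contra h1
      exact hodd (by
        simpa using (ZMod.intCast_zmod_eq_zero_iff_dvd _ _).mp (eq_zero_of_ne_one_two _ h1))
    show ClassGroup.mk0 I ^ mOdd ∈ e.range
    rcases he ℓ hℓ hℓ2 hgood hodd A hA ⟨φ, mem_galK_of_trace _ htr⟩ hφ I hI hmem with h | h
    · exact ⟨_, h⟩
    · exact ⟨(⟨φ, mem_galK_of_trace _ htr⟩ : galK W)⁻¹, by rw [map_inv, h, inv_inv]⟩
  -- `mOdd` is prime to the order of the image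
  have h2 : (c ^ mOdd) ^ mOdd ∈ e.range := by
    have := pow_mem_of_odd_trace hW ∅ B hB c
    exact this
  obtain ⟨k, hk⟩ : ∃ k, (c ^ mOdd) ^ 2 ^ k = 1 :=
    ⟨padicValNat 2 (Nat.card Cl), by
      rw [← pow_mul,
        show mOdd * 2 ^ padicValNat 2 (Nat.card Cl) = Nat.card Cl from
          Nat.div_mul_cancel pow_padicValNat_dvd]
      exact pow_card_eq_one'⟩
  have hcop : (2 ^ k).Coprime mOdd :=
    (Nat.prime_two.coprime_iff_not_dvd.mpr not_two_dvd_mOdd).pow_left k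
  obtain ⟨x, y, e1⟩ := exists_zpow_split hcop (c ^ mOdd)
  rw [e1, hk, one_zpow, one_mul]
  exact zpow_mem h2 y

/-- **An unramified dihedral cyclic character factors through the class map.** -/
theorem char_eq_one_of_classVal (hW : TwoCurve W) (he : IsClassVal e)
    {L : IntermediateField ℚ QBar} [FiniteDimensional ℚ L]
    (heL : ∀ σ : galK W, (∀ x ∈ L, (σ : GQ) x = x) → e σ = 1)
    {C : Type} [CommGroup C] [Finite C] [IsCyclic C] (hC : IsPGroup 2 C) (χ : galK W →* C)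
    (hχ : Function.Surjective χ)
    (hχL : ∀ σ : galK W, (∀ x ∈ L, (σ : GQ) x = x) → χ σ = 1)
    (hdih : ∀ g : GQ, g ∉ galK W → ∀ σ τ : galK W, (τ : GQ) = g * σ * g⁻¹ → χ τ = (χ σ)⁻¹)
    (hur : ∀ q : ℕ, q.Prime → ∀ P : ValuationSubring QBar, P.LiesOverPrime q →
      ∀ σ : galK W, (σ : GQ) ∈ P.inertiaSubgroupIn ℚ → χ σ = 1)
    {σ : galK W} (hσ : e σ = 1) : χ σ = 1 := by
  classical
  set H : Subgroup GQ := χ.ker.map (galK W).subtype with hHdef
  have hmemH : ∀ τ : galK W, (τ : GQ) ∈ H ↔ χ τ = 1 := fun τ => by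
    show (galK W).subtype τ ∈ χ.ker.map (galK W).subtype ↔ χ τ = 1
    rw [Subgroup.mem_map_iff_mem (galK W).subtype_injective, MonoidHom.mem_ker]
  have hHK : H ≤ galK W := Subgroup.map_subtype_le _
  have hnormal : H.Normal := ⟨fun x hx g => by
    obtain ⟨τ, hτ, rfl⟩ := hx
    have hτ' : χ τ = 1 := hτ
    set τ' : galK W := ⟨g * τ * g⁻¹, (normal_galK W).conj_mem _ τ.2 g⟩
    refine (hmemH τ').mpr ?_
    by_cases hg : g ∈ galK W
    · rw [show τ' = ⟨g, hg⟩ * τ * ⟨g, hg⟩⁻¹ from Subtype.ext rfl, map_mul, map_mul, hτ', mul_one,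
        map_inv, mul_inv_cancel]
    · rw [hdih g hg τ τ' rfl, hτ', inv_one]⟩
  have hLK : (L ⊔ Kf).fixingSubgroup ≤ H := fun g hg => by
    rw [IntermediateField.mem_fixingSubgroup_iff] at hg
    have hgK : g ∈ galK W := (IntermediateField.mem_fixingSubgroup_iff _ _).mpr fun x hx =>
      hg x ((le_sup_right : Kf ≤ L ⊔ Kf) hx)
    exact (hmemH ⟨g, hgK⟩).mpr (hχL _ fun x hx => hg x ((le_sup_left : L ≤ L ⊔ Kf) hx))
  have hopen : IsOpen (H : Set GQ) :=
    Subgroup.isOpen_mono hLK (IntermediateField.fixingSubgroup_isOpen _)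
  -- the field cut out by the character
  let M : IntermediateField ℚ QBar := IntermediateField.fixedField H
  have hfix : M.fixingSubgroup = H :=
    InfiniteGalois.fixingSubgroup_fixedField ⟨H, H.isClosed_of_isOpen hopen⟩
  have : FiniteDimensional ℚ M :=
    (InfiniteGalois.isOpen_iff_finite M).mp (by rw [hfix]; exact hopen)
  have : IsGalois ℚ M := (InfiniteGalois.normal_iff_isGalois M).mp (by rw [hfix]; exact hnormal)
  have : NumberField M := { to_finiteDimensional := inferInstance }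
  have hKM' : Kf ≤ M := fun x hx g =>
    (IntermediateField.mem_fixingSubgroup_iff _ _).mp (hHK g.2) x hx
  let : Algebra Kf M := (IntermediateField.inclusion hKM').toRingHom.toAlgebra
  have hKM : ∀ x : Kf, ((algebraMap Kf M x : M) : QBar) = x := fun x => rfl
  have : IsScalarTower ℚ Kf M := IsScalarTower.of_algebraMap_eq fun r => Subtype.ext rfl
  have : IsGalois Kf M := IsGalois.tower_top_of_isGalois ℚ Kf M
  -- its Galois group
  obtain ⟨Φ, hΦ⟩ := exists_restrictHom hKM (galK W).subtype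
    (fun g x hx => (IntermediateField.mem_fixingSubgroup_iff _ _).mp g.2 x hx)
  have hΦker : Φ.ker = χ.ker := by
    ext τ
    rw [MonoidHom.mem_ker, MonoidHom.mem_ker, ← hmemH τ, ← hfix,
      IntermediateField.mem_fixingSubgroup_iff]
    refine ⟨fun h x hx => ?_, fun h => AlgEquiv.ext fun x => Subtype.ext ?_⟩
    · refine (hΦ τ ⟨x, hx⟩).symm.trans ?_
      rw [h]
      rfl
    · exact (hΦ τ x).trans (h x x.2)
  have hΦs : Function.Surjective Φ := fun τ => by
    obtain ⟨g, hgK, hgx⟩ := exists_fixing_restrict hKM τ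
    exact ⟨⟨g, (IntermediateField.mem_fixingSubgroup_iff _ _).mpr hgK⟩,
      AlgEquiv.ext fun x => Subtype.ext ((hΦ _ x).trans (hgx x))⟩
  let ι : C ≃* (M ≃ₐ[Kf] M) := ((QuotientGroup.quotientKerEquivOfSurjective χ hχ).symm.trans
    (QuotientGroup.quotientMulEquivOfEq hΦker.symm)).trans
      (QuotientGroup.quotientKerEquivOfSurjective Φ hΦs)
  have : IsCyclic (M ≃ₐ[Kf] M) := isCyclic_of_surjective ι ι.surjective
  have := Basic.isTotallyComplex_quadField hW
  have := Basic.subsingleton_infinitePlace hW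
  have hunr : NormIndex.Unramified Kf M := unramified_of_inertia hKM fun q hq A hA g hg hgK x hx => by
    have hgK' : g ∈ galK W := (IntermediateField.mem_fixingSubgroup_iff _ _).mpr hgK
    have h1 : g ∈ H := (hmemH ⟨g, hgK'⟩).mpr (hur q hq A hA ⟨g, hgK'⟩ hg)
    rw [← hfix, IntermediateField.mem_fixingSubgroup_iff] at h1
    exact h1 x hx
  set N := (NormIndex.clNorm Kf M).range with hN
  have hindex : Nat.card C ≤ N.index := by
    rw [Nat.card_congr ι.toEquiv]
    exact NormIndex.card_le_index hunr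
  -- the kernel of the character maps to norms
  obtain ⟨j, hj⟩ := IsPGroup.iff_card.mp hC
  obtain ⟨g, hg⟩ := exists_trace_eq_one hW
  set g₀ : galK W := ⟨g, mem_galK_of_trace _ hg⟩ with hg₀
  have hg1 : ((g₀ ^ 2 ^ j : galK W) : GQ) ∈ H := (hmemH _).mpr (by
    rw [map_pow, ← hj]
    exact pow_card_eq_one')
  have hg1' : (tateMod (p := 2) hW.Δ_ne_zero 1 ((g₀ ^ 2 ^ j : galK W) : GQ)).trace = 1 := by
    rw [SubmonoidClass.coe_pow]
    exact (trace_two_pow hW.Δ_ne_zero g j).trans hg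
  have hker : ∀ τ : galK W, χ τ = 1 → e τ ∈ N := fun τ hτ => by
    refine mem_of_mem hW he (L := L ⊔ Kf)
      (fun τ' h => heL τ' fun x hx => h x ((le_sup_left : L ≤ L ⊔ Kf) hx)) (H := H) hLK
      (fun ℓ hℓ A hA φ hφ hφH _ => pow_mem ?_ _) (g := g₀ ^ 2 ^ j) hg1 hg1' ((hmemH τ).mpr hτ)
    rw [← hfix, IntermediateField.mem_fixingSubgroup_iff] at hφH
    refine ⟨ClassGroup.mk0 ⟨centreAt A M,
      mem_nonZeroDivisors_of_ne_zero (centreAt_ne_bot hA hℓ)⟩, ?_⟩
    rw [NormIndex.clNorm_mk0]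
    exact congrArg ClassGroup.mk0 (Subtype.ext (relNorm_centreAt hKM hℓ hA hφ hφH))
  -- onto the quotient by the norms
  let π : galK W →* Cl ⧸ N := (QuotientGroup.mk' N).comp e
  have hπ : Function.Surjective π := fun q => by
    obtain ⟨c, rfl⟩ := QuotientGroup.mk'_surjective N q
    have hn : c ^ Nat.card C ∈ N := by
      rw [Nat.card_congr ι.toEquiv]
      exact pow_card_mem_range c
    have hcop : (Nat.card C).Coprime mOdd := by
      rw [hj]
      exact (Nat.prime_two.coprime_iff_not_dvd.mpr not_two_dvd_mOdd).pow_left j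
    obtain ⟨x, y, hxy⟩ := exists_zpow_split hcop c
    have hy : (c ^ y) ^ mOdd ∈ e.range := by
      rw [range_classVal hW he heL]
      exact ⟨c ^ y, rfl⟩
    obtain ⟨τ, hτ⟩ := hy
    refine ⟨τ, ?_⟩
    show ((e τ : Cl) : Cl ⧸ N) = (c : Cl ⧸ N)
    rw [QuotientGroup.eq, hτ]
    have e1 : (c ^ y) ^ mOdd = (c ^ mOdd) ^ y := by
      rw [← zpow_natCast, ← zpow_mul, mul_comm, zpow_mul, zpow_natCast]
    rw [e1, inv_mul_eq_div]
    conv => arg 2; arg 1; rw [hxy]
    rw [mul_div_cancel_right]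
    exact zpow_mem hn x
  have h1 : χ.ker ≤ π.ker := fun τ hτ => (QuotientGroup.eq_one_iff _).mpr (hker τ hτ)
  have hπi : π.ker.index = N.index := by
    rw [Subgroup.index_ker, MonoidHom.range_eq_top.mpr hπ, Subgroup.card_top,
      Subgroup.index_eq_card]
  have hχi : χ.ker.index = Nat.card C := by
    rw [Subgroup.index_ker, MonoidHom.range_eq_top.mpr hχ, Subgroup.card_top]
  have hrel : χ.ker.relIndex π.ker = 1 := by
    have h := Subgroup.relIndex_mul_index h1
    rw [hπi, hχi] at h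
    refine le_antisymm ?_ (Nat.pos_of_ne_zero fun h0 => ?_)
    · exact Nat.le_of_mul_le_mul_right (by rw [one_mul, h]; exact hindex)
        (lt_of_lt_of_le Nat.card_pos hindex)
    · rw [h0, zero_mul] at h
      exact Nat.card_pos.ne h
  have h2 : π.ker ≤ χ.ker := Subgroup.relIndex_eq_one.mp hrel
  refine h2 ?_
  show ((e σ : Cl) : Cl ⧸ N) = 1
  rw [hσ, QuotientGroup.mk_one]

/-- **The bound on dihedral unramified quotients from the class map.** -/
theorem dihedralBound_of_classMap {W : WeierstrassCurve ℤ} (hW : TwoCurve W) (hmap : ClassMap W) :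
    DihedralBound W := by
  classical
  obtain ⟨e, ⟨L₀, hL₀, heL₀⟩, he⟩ := hmap
  intro Γ _ _ hΓ ψ hψfin hψ hdih hur
  obtain ⟨L₁, hL₁, hψL₁⟩ := hψfin
  have : FiniteDimensional ℚ (L₀ ⊔ L₁ : IntermediateField ℚ QBar) := inferInstance
  have heL : ∀ σ : galK W, (∀ x ∈ L₀ ⊔ L₁, (σ : GQ) x = x) → e σ = 1 := fun σ h =>
    heL₀ σ fun x hx => h x ((le_sup_left : L₀ ≤ L₀ ⊔ L₁) hx)
  have hψL : ∀ σ : galK W, (∀ x ∈ L₀ ⊔ L₁, (σ : GQ) x = x) → ψ σ = 1 := fun σ h =>
    hψL₁ σ fun x hx => h x ((le_sup_right : L₁ ≤ L₀ ⊔ L₁) hx)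
  have hker : e.ker ≤ ψ.ker := fun σ hσ => by
    by_contra h
    have : NeZero ((Monoid.exponent Γ : ℕ) : ℂ) :=
      ⟨Nat.cast_ne_zero.mpr Monoid.exponent_ne_zero_of_finite⟩
    obtain ⟨f, hf⟩ := CommGroup.exists_apply_ne_one_of_hasEnoughRootsOfUnity Γ ℂ h
    have : Finite f.range := Finite.of_surjective _ f.rangeRestrict_surjective
    have h1 := char_eq_one_of_classVal hW he heL (C := f.range)
      (hΓ.of_surjective _ f.rangeRestrict_surjective) (f.rangeRestrict.comp ψ)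
      (f.rangeRestrict_surjective.comp hψ)
      (fun τ hτ => by rw [MonoidHom.comp_apply, hψL τ hτ, map_one])
      (fun g hg τ τ' e1 => by
        rw [MonoidHom.comp_apply, MonoidHom.comp_apply, hdih g hg τ τ' e1, map_inv])
      (fun q hq P hP τ hτ => by rw [MonoidHom.comp_apply, hur q hq P hP τ hτ, map_one]) hσ
    exact hf (congrArg Subtype.val h1)
  calc Nat.card Γ = ψ.ker.index := by
        rw [Subgroup.index_ker, MonoidHom.range_eq_top.mpr hψ, Subgroup.card_top]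
    _ ≤ e.ker.index := Nat.le_of_dvd (Nat.pos_of_ne_zero fun h0 => by
        rw [Subgroup.index_ker] at h0
        exact Nat.card_pos.ne' h0) (Subgroup.index_dvd_of_le hker)
    _ ≤ classTwo W := by
        rw [Subgroup.index_ker, range_classVal hW he heL]
        exact card_range_pow_le

omit [Fact (Nat.Prime 2)] in
/-- **The dihedral input from the class maps.** -/
theorem dihedralInput (hmap : ∀ W : WeierstrassCurve ℤ, TwoCurve W → ClassMap W) :
    DihedralInput := fun W hW =>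
  haveI : Fact (Nat.Prime 2) := ⟨Nat.prime_two⟩
  dihedralBound_of_classMap hW (hmap W hW)

end Fermat.Agent.Two.Class

end
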