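import Fermat.Agent.Two.Class.SeedHom
import Fermat.Agent.Two.Eigen.Algebra

/-!
# The seed without auxiliary primes, with its values

`HasClassSeed S` is the seed on the quaternionic Hecke algebra of `S : Setup W ∅` with its values in
terms of the class group.
-/

set_option autoImplicit false

noncomputable section

namespace Fermat.Agent.Two.Class

open Brandt Brandt.Param

/-- The seed with values in terms of the classes of the primes above the good primes. -/
def HasClassSeed {W : WeierstrassCurve ℤ} (S : Setup W (∅ : Finset ℕ)) : Prop :=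
  ∃ (B : Type) (_ : CommRing B) (_ : IsLocalRing B) (_ : CharP B 2)
    (κ : ClassGroup (NumberField.RingOfIntegers (quadField W)) →* Bˣ)
    (θ : Eigen.hecke S →+* B),
    (∀ x, κ x = 1 ↔ x ^ classOdd W = 1) ∧
    ∀ l : Eigen.GoodIdx W (∅ : Finset ℕ),
      (¬ IsSquare (W.Δ : ZMod (l.1 : ℕ)) → θ (Eigen.gen S (Sum.inl l)) = 0) ∧
      ((2 : ℤ) ∣ W.apOfModel (l.1 : ℕ) → ¬ IsUnit (θ (Eigen.gen S (Sum.inl l)))) ∧
      (IsSquare (W.Δ : ZMod (l.1 : ℕ)) → ¬ (2 : ℤ) ∣ W.apOfModel (l.1 : ℕ) →
        ∀ I : nonZeroDivisors (Ideal (NumberField.RingOfIntegers (quadField W))),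
          (I : Ideal (NumberField.RingOfIntegers (quadField W))).IsPrime →
          ((l.1 : ℕ) : NumberField.RingOfIntegers (quadField W)) ∈
            (I : Ideal (NumberField.RingOfIntegers (quadField W))) →
          ∃ c : Bˣ, (c : B) * c + c + 1 = 0 ∧
            θ (Eigen.gen S (Sum.inl l)) =
              ↑(c * κ (ClassGroup.mk0 I)) + ↑(c * κ (ClassGroup.mk0 I))⁻¹)

end Fermat.Agent.Two.Class

end
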