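import Fermat.Agent.Two.Seed.Global
import Fermat.Agent.Two.Class.ClassSeed

/-!
# The valued seed without auxiliary primes from the global seed
-/

set_option autoImplicit false

noncomputable section

namespace Fermat.Agent.Two.Class

open Brandt Brandt.Param

/-- The valued seed at `V = ∅` from the seed with values in the group algebra. -/
theorem hasClassSeed_of_theta {W : WeierstrassCurve ℤ} (S : Setup W (∅ : Finset ℕ))
    (h : Seed.HasTheta S) : HasClassSeed S := by
  classical
  have : Fact (Nat.Prime 2) := ⟨Nat.prime_two⟩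
  obtain ⟨θ, -, hval⟩ := h
  let B := Seed.SeedRing W (∅ : Finset ℕ)
  have : CharP B 2 := charP_of_injective_algebraMap' Seed.F4 2
  have := Seed.isLocalHom_augment (k := Seed.F4) (Seed.isPGroup_seedGroup W (∅ : Finset ℕ))
  let ε : B →+* Seed.F4 :=
    (Seed.augment (k := Seed.F4) (G := Seed.SeedGroup W (∅ : Finset ℕ))).toRingHom
  have : IsLocalRing B := ε.domain_isLocalRing
  let κ : ClassGroup (NumberField.RingOfIntegers (quadField W)) →* Bˣ :=
    (Seed.classElt W (∅ : Finset ℕ)).toHomUnits
  have hκ : ∀ x, ((κ x : Bˣ) : B) = Seed.classElt W (∅ : Finset ℕ) x := fun _ => rfl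
  have hε : ∀ x, ε (Seed.classElt W (∅ : Finset ℕ) x) = 1 := fun x => Seed.augment_of _
  refine ⟨B, inferInstance, inferInstance, inferInstance, κ, θ, fun x => ?_, fun l => ?_⟩
  · rw [← Units.val_inj, hκ, Units.val_one, ← Seed.clProj_eq_one_iff]
    constructor
    · intro e
      have e' : ((Seed.clProj W x, (1 : Eigen.AuxIdx (∅ : Finset ℕ) → Multiplicative (ZMod 2))) :
          Seed.SeedGroup W (∅ : Finset ℕ)) = 1 :=
        MonoidAlgebra.of_injective (e.trans (map_one (MonoidAlgebra.of Seed.F4 (Seed.SeedGroup W (∅ : Finset ℕ)))).symm)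
      exact congrArg Prod.fst e'
    · intro e
      show MonoidAlgebra.of Seed.F4 (Seed.SeedGroup W (∅ : Finset ℕ))
        (MonoidHom.inl _ _ (Seed.clProj W x)) = 1
      rw [e, map_one, map_one]
  · refine ⟨(hval l).1, fun he hu => ?_, fun hsq hodd I hI hmem => ?_⟩
    · have hu' := hu.map ε
      rcases (hval l).2.1 he with h0 | ⟨x, hx⟩
      · rw [h0, map_zero] at hu'
        exact not_isUnit_zero hu'
      · rw [hx, map_add, hε, hε, CharTwo.add_self_eq_zero] at hu'
        exact not_isUnit_zero hu'
    · obtain ⟨c, hc, e⟩ := (hval l).2.2 hsq hodd I hI hmem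
      have hc0 : c ≠ 0 := fun h0 => by rw [h0] at hc; simp at hc
      refine ⟨Units.map (algebraMap Seed.F4 B).toMonoidHom (Units.mk0 c hc0), ?_, ?_⟩
      · show algebraMap Seed.F4 B c * algebraMap Seed.F4 B c + algebraMap Seed.F4 B c + 1 = 0
        rw [← map_mul, ← map_add, ← map_one (algebraMap Seed.F4 B), ← map_add, hc, map_zero]
      · rw [e, mul_inv, ← map_inv κ, ← map_inv (Units.map (algebraMap Seed.F4 B).toMonoidHom),
          Units.val_mul, Units.val_mul, hκ, hκ]
        show c • _ + c⁻¹ • _ = algebraMap Seed.F4 B c * _ + algebraMap Seed.F4 B c⁻¹ * _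
        rw [← Algebra.smul_def, ← Algebra.smul_def]

end Fermat.Agent.Two.Class

end
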