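import Fermat.Agent.Two.Class.Dihedral
import Fermat.Agent.GaloisReps.Model
import Fermat.Agent.GaloisReps.EigenPlane
import Fermat.Agent.Arith.RootsOfUnity
import Fermat.Agent.Arith.Chebotarev.Main
import Mathlib.RingTheory.RootsOfUnity.AlgebraicallyClosed

/-!
# The trace function of a character of the Hecke algebra in characteristic two

A ring map from the Hecke algebra to a ring of characteristic two kills the elements whose
matrices are divisible by a large power of two.  Modulo that power, `g + χ(g) g⁻¹` is the image of a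
Hecke element, so its image is a function of `g` with the identities of a trace.
-/

set_option autoImplicit false

noncomputable section

namespace Fermat.Agent.Two.Class

open Fermat.Agent.GaloisReps

local notation "Q̄" => AlgebraicClosure ℚ
local notation "GQ" => AlgebraicClosure ℚ ≃ₐ[ℚ] AlgebraicClosure ℚ

/-- Frobenius elements meet every class at a finite level. -/
theorem exists_frobenius_level (L : IntermediateField ℚ Q̄) [FiniteDimensional ℚ L] (g : GQ)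
    (S : Finset ℕ) : ∃ ℓ : ℕ, ℓ.Prime ∧ ℓ ∉ S ∧ ∃ A : ValuationSubring Q̄, A.LiesOverPrime ℓ ∧
      ∃ φ : GQ, A.IsFrobeniusAt φ ℓ ∧ ∀ x ∈ L, φ x = g x := by
  let L' : IntermediateField ℚ Q̄ := IntermediateField.normalClosure ℚ L Q̄
  have : Normal ℚ L' := normalClosure.normal ℚ L Q̄
  have : IsGalois ℚ L' := ⟨⟩
  obtain ⟨ℓ, hℓ, hℓS, A, hA, φ, hφ, heq⟩ :=
    Arith.Chebotarev.exists_frobenius_restrict_eq L' g S
  refine ⟨ℓ, hℓ, hℓS, A, hA, φ, hφ, fun x hx => ?_⟩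
  exact (AlgEquiv.restrictNormal_commutes φ L' ⟨x, L.le_normalClosure hx⟩).symm.trans
    ((congrArg (fun f : L' ≃ₐ[ℚ] L' => algebraMap L' Q̄ (f ⟨x, L.le_normalClosure hx⟩)) heq).trans
      (AlgEquiv.restrictNormal_commutes g L' ⟨x, L.le_normalClosure hx⟩))

/-- A ring map to characteristic two kills what is divisible by a high power of two. -/
theorem exists_pow_kills {T : Type*} [CommRing T] {d : ℕ} (h : T →+* Matrix (Fin d) (Fin d) ℤ)
    (hinj : Function.Injective h) {B : Type*} [CommRing B] [CharP B 2] (θ : T →+* B) :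
    ∃ c : ℕ, 0 < c ∧ ∀ x, (h x).map (Int.castRingHom (ZMod (2 ^ c))) = 0 → θ x = 0 := by
  let M := Matrix (Fin d) (Fin d) ℤ
  let Λ : Submodule ℤ M := AddSubgroup.toIntSubmodule h.toAddMonoidHom.range
  let Λs : ℕ →o Submodule ℤ M :=
    ⟨fun k => Λ.comap ((2 : ℤ) ^ k • (LinearMap.id : M →ₗ[ℤ] M)), fun a b hab x hx => by
      rw [Submodule.mem_comap, LinearMap.smul_apply, LinearMap.id_apply] at hx ⊢
      rw [← Nat.sub_add_cancel hab, pow_add, mul_smul]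
      exact Λ.smul_mem _ hx⟩
  obtain ⟨a, ha⟩ := monotone_stabilizes_iff_noetherian.mpr (inferInstance : IsNoetherian ℤ M) Λs
  refine ⟨a + 1, Nat.succ_pos _, fun x hx => ?_⟩
  have hdvd : ∀ i j, (2 : ℤ) ^ (a + 1) ∣ h x i j := fun i j => by
    have := congrFun (congrFun hx i) j
    rw [Matrix.map_apply, Matrix.zero_apply, eq_intCast,
      ZMod.intCast_zmod_eq_zero_iff_dvd] at this
    simpa using this
  choose m hm using hdvd
  have hxm : h x = ((2 : ℤ) ^ (a + 1)) • (Matrix.of m : M) :=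
    Matrix.ext fun i j => by rw [hm i j]; rfl
  have h1 : (Matrix.of m : M) ∈ Λs (a + 1) := ⟨x, hxm⟩
  rw [← ha (a + 1) a.le_succ] at h1
  obtain ⟨y, hy⟩ := h1
  have : x = 2 * y := hinj (by
    rw [map_mul, map_ofNat, hxm, pow_succ', mul_smul]
    rw [show h y = (2 : ℤ) ^ a • (Matrix.of m : M) from hy, two_mul]
    exact two_zsmul _)
  rw [this, map_mul, map_ofNat, CharTwo.two_eq_zero, zero_mul]

theorem cast_eq_one_of_odd {B : Type*} [CommRing B] [CharP B 2] {n : ℕ} (hn : Odd n) :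
    (n : B) = 1 := by
  obtain ⟨k, rfl⟩ := hn
  rw [Nat.cast_add, Nat.cast_mul, Nat.cast_ofNat, CharTwo.two_eq_zero, zero_mul, zero_add,
    Nat.cast_one]

theorem odd_val_unit {c : ℕ} (hc : 0 < c) (u : (ZMod (2 ^ c))ˣ) :
    Odd (u : ZMod (2 ^ c)).val := by
  have h := ZMod.val_coe_unit_coprime u
  rwa [Nat.coprime_pow_right_iff hc, Nat.coprime_two_right] at h

theorem card_rootsOfUnity_two_pow (c : ℕ) :
    Nat.card (rootsOfUnity (2 ^ c) Q̄) = 2 ^ c :=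
  HasEnoughRootsOfUnity.natCard_rootsOfUnity Q̄ (2 ^ c)

/-- The trace function of a character of the Hecke algebra in characteristic two. -/
theorem exists_trace {N : ℕ} [NeZero N] [Fact (Nat.Prime 2)] (M : HeckeGaloisModel N 2)
    {B : Type*} [CommRing B] [CharP B 2] (S : Finset ℕ) (h2 : 2 ∈ S)
    (θ : CuspForm.heckeAlgebra N 2 (↑S : Set ℕ) →+* B) :
    ∃ t : GQ → B, (∀ σ τ, t (σ * τ) = t (τ * σ)) ∧
      (∀ σ τ, t (σ * τ) + t (σ * τ⁻¹) = t σ * t τ) ∧ t 1 = 0 ∧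
      (∃ L : IntermediateField ℚ Q̄, FiniteDimensional ℚ L ∧
        ∀ g σ : GQ, (∀ x ∈ L, σ x = x) → t (g * σ) = t g) ∧
      ∀ (ℓ : ℕ) (hℓ : ℓ.Prime) (hℓN : ¬ ℓ ∣ N) (hℓS : ℓ ∉ (↑S : Set ℕ)),
        ∀ A : ValuationSubring Q̄, A.LiesOverPrime ℓ → ∀ φ : GQ, A.IsFrobeniusAt φ ℓ →
          t φ = θ (CuspForm.heckeAlgebra.T hℓ hℓN hℓS) := by
  classical
  let ι : CuspForm.heckeAlgebra N 2 (↑S : Set ℕ) →+* FullHecke N :=
    (Subalgebra.inclusion
      (CuspForm.heckeAlgebra_mono (N := N) (k := 2) (Set.empty_subset (↑S : Set ℕ)))).toRingHom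
  obtain ⟨c, hc, hker⟩ := exists_pow_kills (M.hecke.comp ι)
    (M.hecke_injective.comp (Subalgebra.inclusion_injective _)) θ
  have : NeZero (2 ^ c) := ⟨pow_ne_zero c two_ne_zero⟩
  let R := Matrix (Fin M.d) (Fin M.d) (ZMod (2 ^ c))
  let π : Matrix (Fin M.d) (Fin M.d) ℤ_[2] →+* R := (PadicInt.toZModPow c).mapMatrix
  let h : CuspForm.heckeAlgebra N 2 (↑S : Set ℕ) →+* R := (matIn M.hecke _).comp ι
  let ρ : GQ →* Rˣ := (π.toMonoidHom.comp M.gal).toHomUnits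
  let χ : GQ →* (ZMod (2 ^ c))ˣ :=
    (modularCyclotomicCharacter Q̄ (card_rootsOfUnity_two_pow c)).comp
      { toFun := fun σ => σ.toRingEquiv, map_one' := rfl, map_mul' := fun _ _ => rfl }
  have hπ : ∀ x, π (matIn M.hecke ℤ_[2] (ι x)) = h x := fun x => by
    show ((M.hecke (ι x)).map (Int.castRingHom ℤ_[2])).map (PadicInt.toZModPow c) =
      (M.hecke (ι x)).map (Int.castRingHom (ZMod (2 ^ c)))
    ext i j
    simp
  have hcomm : ∀ σ x, Commute ((ρ σ : R)) (h x) := fun σ x => by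
    have := congrArg π (M.gal_comm σ (ι x))
    rwa [map_mul, map_mul, hπ] at this
  let G : GQ → R := fun σ => (ρ σ : R) + (χ σ : ZMod (2 ^ c)) • (↑(ρ σ)⁻¹ : R)
  obtain ⟨L, hL, hLgal⟩ := M.gal_continuous c
  obtain ⟨ζ, hζ⟩ := HasEnoughRootsOfUnity.exists_primitiveRoot Q̄ (2 ^ c)
  have := hL
  have : FiniteDimensional ℚ (IntermediateField.adjoin ℚ {ζ}) :=
    IntermediateField.adjoin.finiteDimensional (Algebra.IsIntegral.isIntegral ζ)
  let L' : IntermediateField ℚ Q̄ := L ⊔ IntermediateField.adjoin ℚ {ζ}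
  have : FiniteDimensional ℚ L' := IntermediateField.finiteDimensional_sup _ _
  have hlevel : ∀ σ : GQ, (∀ x ∈ L', σ x = x) → ρ σ = 1 ∧ χ σ = 1 := fun σ hσ => by
    refine ⟨Units.ext (hLgal σ fun x hx => hσ x ((le_sup_left : L ≤ L') hx)), ?_⟩
    refine Units.ext ?_
    show ((modularCyclotomicCharacter Q̄ (card_rootsOfUnity_two_pow c) σ.toRingEquiv :
      (ZMod (2 ^ c))ˣ) : ZMod (2 ^ c)) = 1
    rw [← Nat.cast_one]
    refine Arith.modularCyclotomicCharacter_eq_natCast _ fun η hη => ?_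
    obtain ⟨i, -, rfl⟩ := hζ.eq_pow_of_pow_eq_one hη
    rw [pow_one]
    show σ (ζ ^ i) = _
    rw [map_pow, hσ ζ ((le_sup_right : _ ≤ L') (IntermediateField.mem_adjoin_simple_self ℚ ζ))]
  have hshift : ∀ g σ : GQ, (∀ x ∈ L', σ x = x) → G (g * σ) = G g := fun g σ hσ => by
    simp only [G, map_mul, (hlevel σ hσ).1, (hlevel σ hσ).2, mul_one]
  have hfrob : ∀ (ℓ : ℕ) (hℓ : ℓ.Prime) (hℓN : ¬ ℓ ∣ N) (hℓS : ℓ ∉ (↑S : Set ℕ)),
      ∀ A : ValuationSubring Q̄, A.LiesOverPrime ℓ → ∀ φ : GQ, A.IsFrobeniusAt φ ℓ →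
        h (CuspForm.heckeAlgebra.T hℓ hℓN hℓS) = G φ := fun ℓ hℓ hℓN hℓS A hA φ hφ => by
    have hne : ℓ ≠ 2 := fun e => hℓS (e ▸ h2)
    have hN2 : ¬ ℓ ∣ N * 2 := fun hd => (hℓ.dvd_mul.mp hd).elim hℓN fun h' =>
      hne ((Nat.prime_dvd_prime_iff_eq hℓ Nat.prime_two).mp h')
    have hT : ι (CuspForm.heckeAlgebra.T hℓ hℓN hℓS) = HeckeDuality.heckeOp N 2 ℓ hℓ := by
      rw [HeckeDuality.heckeOp, dif_neg hℓN]
      rfl
    have hχ : ((χ φ : (ZMod (2 ^ c))ˣ) : ZMod (2 ^ c)) = ℓ :=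
      Arith.modularCyclotomicCharacter_frobenius hA hℓ hφ _ fun hd =>
        hne ((Nat.prime_dvd_prime_iff_eq hℓ Nat.prime_two).mp (hℓ.dvd_of_dvd_pow hd))
    have e := congrArg π (M.gal_frobenius ℓ hℓ hN2 A hA φ hφ)
    rw [← hT, map_add, map_sub, map_mul, map_mul, hπ, map_zero] at e
    have hℓ' : π ((ℓ : ℤ_[2]) • (1 : Matrix (Fin M.d) (Fin M.d) ℤ_[2])) =
        (ℓ : ZMod (2 ^ c)) • (1 : R) := by
      rw [Nat.cast_smul_eq_nsmul, Nat.cast_smul_eq_nsmul, map_nsmul, map_one]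
    rw [hℓ'] at e
    have hu : π (M.gal φ) = (ρ φ : R) := rfl
    rw [hu] at e
    calc h (CuspForm.heckeAlgebra.T hℓ hℓN hℓS)
        = h (CuspForm.heckeAlgebra.T hℓ hℓN hℓS) * (ρ φ : R) * ↑(ρ φ)⁻¹ :=
          (Units.mul_inv_cancel_right _ _).symm
      _ = ((ρ φ : R) * ρ φ + (ℓ : ZMod (2 ^ c)) • 1) * ↑(ρ φ)⁻¹ := by
          rw [sub_add_eq_add_sub, sub_eq_zero] at e
          rw [e]
      _ = G φ := by
          rw [add_mul, Units.mul_inv_cancel_right, smul_mul_assoc, one_mul, ← hχ]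
  have hex : ∀ g, ∃ x, h x = G g := fun g => by
    obtain ⟨ℓ, hℓ, hℓS, A, hA, φ, hφ, hag⟩ :=
      exists_frobenius_level L' g (S ∪ N.primeFactors)
    have hℓN : ¬ ℓ ∣ N := fun hd => hℓS (Finset.mem_union_right _
      (Nat.mem_primeFactors.mpr ⟨hℓ, hd, NeZero.ne N⟩))
    have hℓS' : ℓ ∉ (↑S : Set ℕ) := fun hm => hℓS (Finset.mem_union_left _ hm)
    refine ⟨CuspForm.heckeAlgebra.T hℓ hℓN hℓS', ?_⟩
    rw [hfrob ℓ hℓ hℓN hℓS' A hA φ hφ, ← hshift g (g⁻¹ * φ) fun x hx => ?_, mul_inv_cancel_left]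
    rw [AlgEquiv.mul_apply, hag x hx]
    exact g.symm_apply_apply x
  choose X hX using hex
  have hθ : ∀ x y, h x = h y → θ x = θ y := fun x y e => sub_eq_zero.mp (by
    rw [← map_sub]
    refine hker _ ?_
    show h (x - y) = 0
    rw [map_sub, e, sub_self])
  have hcG : ∀ σ τ, Commute ((ρ σ : R)) (G τ) := fun σ τ => hX τ ▸ hcomm σ (X τ)
  have hsmulU : ∀ (a : ZMod (2 ^ c)) (x : CuspForm.heckeAlgebra N 2 (↑S : Set ℕ)),
      h (a.val • x) = a • h x := fun a x => by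
    rw [map_nsmul, ← Nat.cast_smul_eq_nsmul (ZMod (2 ^ c)), ZMod.natCast_zmod_val]
  refine ⟨fun σ => θ (X σ), fun σ τ => hθ _ _ ?_, fun σ τ => ?_, ?_,
    ⟨L', inferInstance, fun g σ hσ => hθ _ _ (by rw [hX, hX, hshift g σ hσ])⟩,
    fun ℓ hℓ hℓN hℓS A hA φ hφ => hθ _ _ (by rw [hX, hfrob ℓ hℓ hℓN hℓS A hA φ hφ])⟩
  · rw [hX, hX]
    have e : G (σ * τ) = (ρ σ : R) * G (τ * σ) * ↑(ρ σ)⁻¹ := by
      simp only [G, map_mul, mul_inv_rev, Units.val_mul, mul_add, add_mul, mul_smul_comm,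
        smul_mul_assoc, mul_comm (χ σ : ZMod (2 ^ c)) (χ τ : ZMod (2 ^ c))]
      simp only [mul_assoc, Units.mul_inv, mul_one, Units.mul_inv_cancel_left]
    rw [e, (hcG σ (τ * σ)).eq, Units.mul_inv_cancel_right]
  · have e : h (X (σ * τ) + (χ τ : ZMod (2 ^ c)).val • X (σ * τ⁻¹)) = h (X σ * X τ) := by
      rw [map_add, hsmulU, map_mul, hX, hX, hX, hX]
      have hc1 : (↑(ρ σ)⁻¹ : R) * G τ = G τ * ↑(ρ σ)⁻¹ := ((hcG σ τ).units_inv_left).eq
      calc G (σ * τ) + (χ τ : ZMod (2 ^ c)) • G (σ * τ⁻¹)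
          = (ρ σ : R) * G τ + (χ σ : ZMod (2 ^ c)) • (G τ * ↑(ρ σ)⁻¹) := by
            simp only [G, map_mul, map_inv, mul_inv_rev, inv_inv, Units.val_mul, mul_add, add_mul,
              mul_smul_comm, smul_mul_assoc, smul_add, smul_smul]
            rw [← mul_assoc, mul_comm (χ τ : ZMod (2 ^ c)) (χ σ : ZMod (2 ^ c)), mul_assoc,
              Units.mul_inv, mul_one]
            abel
        _ = G σ * G τ := by
            rw [← hc1, ← smul_mul_assoc, ← add_mul]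
    have h' := hθ _ _ e
    rwa [map_add, map_mul, map_nsmul, nsmul_eq_mul,
      cast_eq_one_of_odd (odd_val_unit hc _), one_mul] at h'
  · show θ (X 1) = 0
    rw [← CharTwo.two_eq_zero (R := B), ← map_ofNat θ 2]
    refine hθ _ _ ?_
    rw [hX, map_ofNat]
    simp only [G, map_one, inv_one, Units.val_one, one_smul]
    exact one_add_one_eq_two

end Fermat.Agent.Two.Class

end
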