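import Fermat.Agent.Two.Class.SeedHom
import Fermat.Agent.Two.Class.Quad
import Fermat.Agent.Two.Class.Trace
import Fermat.Agent.GaloisReps.OfInjective
import Fermat.Agent.EichlerShimura.InjectiveProof
import Mathlib.RingTheory.ClassGroup.Basic
import Mathlib.NumberTheory.NumberField.ClassNumber

/-!
# The class map

From the seed: its trace function is `a + a⁻¹` on `galK`, and `a ^ 3` takes values in the image of
the class group.
-/

set_option autoImplicit false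

noncomputable section

namespace Fermat.Agent.Two.Class

open Fermat.Agent.Two Fermat.Agent.Deform

local notation "Q̄" => AlgebraicClosure ℚ
local notation "Cl" W => ClassGroup (NumberField.RingOfIntegers (quadField W))

theorem classTwo_mul_classOdd (W : WeierstrassCurve ℤ) :
    classTwo W * classOdd W = Nat.card (Cl W) :=
  Nat.mul_div_cancel' pow_padicValNat_dvd

theorem exists_cube_inv (W : WeierstrassCurve ℤ) :
    ∃ k : ℕ, ∀ x : Cl W, (x ^ 3) ^ (classOdd W * k) = x ^ classOdd W := by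
  obtain ⟨v, hv⟩ : ∃ v, classTwo W = 2 ^ v := ⟨_, rfl⟩
  have : NeZero (2 ^ v) := ⟨pow_ne_zero v two_ne_zero⟩
  refine ⟨((3 : ZMod (2 ^ v))⁻¹).val, fun x => ?_⟩
  have h3 : (3 * ((3 : ZMod (2 ^ v))⁻¹).val) % 2 ^ v = 1 % 2 ^ v := by
    have : ((3 * ((3 : ZMod (2 ^ v))⁻¹).val : ℕ) : ZMod (2 ^ v)) = ((1 : ℕ) : ZMod (2 ^ v)) := by
      rw [Nat.cast_mul, ZMod.natCast_zmod_val, Nat.cast_one]
      exact ZMod.coe_mul_inv_eq_one 3 (Nat.Coprime.pow_right _ (by norm_num))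
    exact (ZMod.natCast_eq_natCast_iff' _ _ _).mp this
  have hord : (x ^ classOdd W) ^ 2 ^ v = 1 := by
    rw [← pow_mul, ← hv, mul_comm, classTwo_mul_classOdd, pow_card_eq_one']
  rw [← pow_mul, show 3 * (classOdd W * ((3 : ZMod (2 ^ v))⁻¹).val) =
    classOdd W * (3 * ((3 : ZMod (2 ^ v))⁻¹).val) by ring, pow_mul]
  conv_rhs => rw [← pow_one (x ^ classOdd W)]
  rw [pow_eq_pow_mod _ hord, h3, ← pow_eq_pow_mod _ hord]

theorem exists_prime_above (W : WeierstrassCurve ℤ) {ℓ : ℕ} (hℓ : ℓ.Prime) :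
    ∃ I : nonZeroDivisors (Ideal (NumberField.RingOfIntegers (quadField W))),
      (I : Ideal (NumberField.RingOfIntegers (quadField W))).IsPrime ∧
        (ℓ : NumberField.RingOfIntegers (quadField W)) ∈
          (I : Ideal (NumberField.RingOfIntegers (quadField W))) := by
  have hne : Ideal.span {(ℓ : NumberField.RingOfIntegers (quadField W))} ≠ ⊤ := fun h => by
    rw [Ideal.span_singleton_eq_top] at h
    have := h.map (Algebra.norm ℤ)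
    rw [show (ℓ : NumberField.RingOfIntegers (quadField W)) =
      algebraMap ℤ _ (ℓ : ℤ) by simp, Algebra.norm_algebraMap, isUnit_pow_iff, Int.isUnit_iff]
      at this
    · rcases this with h1 | h1
      · exact hℓ.one_lt.ne' (by exact_mod_cast h1)
      · omega
    · exact Module.finrank_pos.ne'
  obtain ⟨I, hI, hle⟩ := Ideal.exists_le_maximal _ hne
  have hmem : (ℓ : NumberField.RingOfIntegers (quadField W)) ∈ I :=
    hle (Ideal.mem_span_singleton_self _)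
  refine ⟨⟨I, mem_nonZeroDivisors_of_ne_zero fun h => ?_⟩, hI.isPrime, hmem⟩
  rw [Submodule.zero_eq_bot] at h
  rw [h, Ideal.mem_bot, Nat.cast_eq_zero] at hmem
  exact hℓ.ne_zero hmem

/-- **The class map from the seed.** -/
theorem classMap_of_seedHom {W : WeierstrassCurve ℤ} (hW : TwoCurve W) (hseed : SeedHom W) :
    ClassMap W := by
  classical
  have : Fact (Nat.Prime 2) := ⟨Nat.prime_two⟩
  obtain ⟨B, _, _, _, κ, S, θ, h2, hS, hκ, hval⟩ := hseed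
  obtain ⟨t, hcomm, hkey, hone, ⟨L, hL, hlevel⟩, hfrob⟩ := exists_trace
    (GaloisReps.modelOfCongruence (N := badLevel W) (p := 2)
      (GaloisReps.congruenceProperty_all EichlerShimura.injectiveOnTorsion_all _ _)) S h2 θ
  have hΔ := hW.Δ_ne_zero
  have hprime : ∀ {ℓ : ℕ}, ℓ.Prime → ℓ ≠ 2 → W.IsGoodPrimeFor ℓ →
      ¬ ℓ ∣ badLevel W ∧ ℓ ∉ (↑S : Set ℕ) := fun {ℓ} hℓ hℓ2 hg => by
    have h1 : ¬ ℓ ∣ badLevel W := fun hd => hg ((prime_dvd_badLevel_iff hΔ hℓ).mp hd)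
    exact ⟨h1, fun hm => (hS ℓ (Finset.mem_coe.mp hm)).elim hℓ2 h1⟩
  -- Frobenius elements agreeing with a given element
  have happrox : ∀ σ : Gal, ∃ (ℓ : ℕ) (hℓ : ℓ.Prime) (hℓN : ¬ ℓ ∣ badLevel W)
      (hℓS : ℓ ∉ (↑S : Set ℕ)) (P : ValuationSubring Q̄) (φ : Gal),
      P.LiesOverPrime ℓ ∧ P.IsFrobeniusAt φ ℓ ∧ (φ ∈ galK W ↔ σ ∈ galK W) ∧
        (∀ x ∈ L, (σ⁻¹ * φ) x = x) ∧ W.IsGoodPrimeFor ℓ ∧ ℓ ≠ 2 ∧ t σ = t φ ∧
        t φ = θ (CuspForm.heckeAlgebra.T hℓ hℓN hℓS) := fun σ => by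
    have := hL
    obtain ⟨ℓ, hℓ, hℓS, P, hP, φ, hφ, hag⟩ :=
      exists_frobenius_level (L ⊔ quadField W) σ (S ∪ (badLevel W).primeFactors)
    have hℓS' : ℓ ∉ (↑S : Set ℕ) := fun hm => hℓS (Finset.mem_union_left _ hm)
    have hℓN : ¬ ℓ ∣ badLevel W := fun hd => hℓS (Finset.mem_union_right _
      (Nat.mem_primeFactors.mpr ⟨hℓ, hd, NeZero.ne _⟩))
    have hfix : ∀ x ∈ L, (σ⁻¹ * φ) x = x := fun x hx => by
      rw [AlgEquiv.mul_apply, hag x ((le_sup_left : L ≤ L ⊔ quadField W) hx)]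
      exact σ.symm_apply_apply x
    refine ⟨ℓ, hℓ, hℓN, hℓS', P, φ, hP, hφ, ?_, hfix,
      fun hd => hℓN ((prime_dvd_badLevel_iff hΔ hℓ).mpr hd),
      fun e => hℓS' (e ▸ h2), ?_, hfrob ℓ hℓ hℓN hℓS' P hP φ hφ⟩
    · rw [mem_galK_iff, mem_galK_iff]
      refine forall₂_congr fun y hy => ?_
      rw [hag y ((le_sup_right : quadField W ≤ _) (IntermediateField.subset_adjoin ℚ _ hy))]
    · conv_rhs => rw [← mul_inv_cancel_left σ φ, hlevel σ _ hfix]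
  have htl : TraceLike (galK W) t := ⟨hcomm, hkey, hone, fun σ hσ => by
    obtain ⟨ℓ, hℓ, hℓN, hℓS, P, φ, hP, hφ, hiff, -, hg, hℓ2, e1, e2⟩ := happrox σ
    rw [e1, e2]
    exact (hval ℓ hℓ hℓN hℓS).1 fun hsq =>
      hσ (hiff.mp ((mem_galK_iff_isSquare hℓ hℓ2 hg hP hφ).mpr hsq))⟩
  -- the values at the Frobenius elements
  have hv : ∀ (ℓ : ℕ), ℓ.Prime → ℓ ≠ 2 → W.IsGoodPrimeFor ℓ → ¬ (2 : ℤ) ∣ W.apOfModel ℓ →
      ∀ P : ValuationSubring Q̄, P.LiesOverPrime ℓ → ∀ φ : galK W,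
        P.IsFrobeniusAt (φ : Gal) ℓ →
        ∀ I : nonZeroDivisors (Ideal (NumberField.RingOfIntegers (quadField W))),
          (I : Ideal (NumberField.RingOfIntegers (quadField W))).IsPrime →
          (ℓ : NumberField.RingOfIntegers (quadField W)) ∈
            (I : Ideal (NumberField.RingOfIntegers (quadField W))) →
          ∃ c : Bˣ, c ^ 3 = 1 ∧ IsUnit (t φ) ∧
            t φ = ↑(c * κ (ClassGroup.mk0 I)) + ↑(c * κ (ClassGroup.mk0 I))⁻¹ := by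
    intro ℓ hℓ hℓ2 hg hodd P hP φ hφ I hI hmem
    obtain ⟨hℓN, hℓS⟩ := hprime hℓ hℓ2 hg
    obtain ⟨c, hc, e⟩ := (hval ℓ hℓ hℓN hℓS).2.2
      ((mem_galK_iff_isSquare hℓ hℓ2 hg hP hφ).mp φ.2) hodd I hI hmem
    have e' := (hfrob ℓ hℓ hℓN hℓS P hP φ hφ).trans e
    refine ⟨c, Units.ext ?_, e' ▸ ?_, e'⟩
    · rw [Units.val_pow_eq_pow_val, Units.val_one]
      linear_combination ((c : B) - 1) * hc
    · refine isUnit_add_inv_of_cube_root hc (k := padicValNat 2 (Nat.card (Cl W))) ?_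
      rw [← map_pow, hκ, ← pow_mul, show 2 ^ padicValNat 2 (Nat.card (Cl W)) = classTwo W from rfl,
        classTwo_mul_classOdd, pow_card_eq_one']
  by_cases hex : ∃ σ : galK W, IsUnit (t σ)
  swap
  · refine ⟨1, ⟨⊥, inferInstance, fun σ _ => rfl⟩, fun ℓ hℓ hℓ2 hg hodd P hP φ hφ I hI hmem => ?_⟩
    obtain ⟨c, -, hu, -⟩ := hv ℓ hℓ hℓ2 hg hodd P hP φ hφ I hI hmem
    exact absurd ⟨φ, hu⟩ hex
  obtain ⟨σ₀, hu₀⟩ := hex
  -- the values of a unit trace are `u + u⁻¹` with `u ^ 3` in the image of `κ`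
  have hroot : ∀ σ : galK W, IsUnit (t σ) → ∃ (u : Bˣ) (x : Cl W),
      u ^ 3 = κ x ∧ t σ = u + ↑u⁻¹ := fun σ hu => by
    obtain ⟨ℓ, hℓ, hℓN, hℓS, P, φ, hP, hφ, hiff, -, hg, hℓ2, e1, e2⟩ := happrox (σ : Gal)
    have hodd : ¬ (2 : ℤ) ∣ W.apOfModel ℓ := fun hd =>
      (hval ℓ hℓ hℓN hℓS).2.1 hd (e2 ▸ e1 ▸ hu)
    obtain ⟨I, hI, hmem⟩ := exists_prime_above W hℓ
    obtain ⟨c, hc, -, e⟩ := hv ℓ hℓ hℓ2 hg hodd P hP ⟨φ, hiff.mpr σ.2⟩ hφ I hI hmem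
    exact ⟨c * κ (ClassGroup.mk0 I), ClassGroup.mk0 I ^ 3, by rw [mul_pow, hc, one_mul, map_pow],
      e1.trans e⟩
  obtain ⟨u₀, -, -, e₀⟩ := hroot σ₀ hu₀
  obtain ⟨g, hg'⟩ := exists_notMem_galK hW.Δ_neg
  obtain ⟨a, hsum, hker, -⟩ := htl.exists_char hg' σ₀.2 e₀ (β := (u₀ : B))
    (by linear_combination -u₀.mul_inv - CharTwo.two_eq_zero (R := B)) (e₀ ▸ hu₀)
  have hunit : ∀ σ : galK W, IsUnit (t σ) → ∃ x : Cl W, a σ ^ 3 = κ x := fun σ hu => by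
    obtain ⟨u, x, hx, e⟩ := hroot σ hu
    rcases eq_or_eq_inv_of_add_inv_eq ((hsum σ).trans e) (e ▸ hu) with h | h
    · exact ⟨x, by rw [h, hx]⟩
    · exact ⟨x⁻¹, by rw [h, inv_pow, hx, map_inv]⟩
  have hall : ∀ σ : galK W, ∃ x : Cl W, a σ ^ 3 = κ x := fun σ => by
    by_cases hu : IsUnit (t σ)
    · exact hunit σ hu
    obtain ⟨x₀, hx₀⟩ := hunit σ₀ hu₀
    obtain ⟨y, hy⟩ := hunit (σ * σ₀) (by
      rw [← hsum, map_mul]
      exact isUnit_mul_add_inv (by rwa [hsum]) (by rwa [hsum]))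
    exact ⟨y * x₀⁻¹, by rw [map_mul, map_inv, ← hy, ← hx₀, map_mul, mul_pow, mul_inv_cancel_right]⟩
  choose X hX using hall
  obtain ⟨k, hk⟩ := exists_cube_inv W
  have hwd : ∀ x y : Cl W, κ x = κ y → x ^ (classOdd W * k) = y ^ (classOdd W * k) := fun x y e => by
    have h1 : κ (x * y⁻¹) = 1 := by rw [map_mul, map_inv, e, mul_inv_cancel]
    rw [pow_mul, pow_mul]
    congr 1
    have := (hκ _).mp h1
    rwa [mul_pow, inv_pow, mul_inv_eq_one] at this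
  refine ⟨MonoidHom.mk' (fun σ => X σ ^ (classOdd W * k)) fun σ τ => ?_, ⟨L, hL, fun σ hσ => ?_⟩,
    fun ℓ hℓ hℓ2 hg hodd P hP φ hφ I hI hmem => ?_⟩
  · rw [← mul_pow]
    exact hwd _ _ (by rw [map_mul, ← hX, ← hX, ← hX, map_mul, mul_pow])
  · have h1 : a σ = 1 := hker σ (by rw [hlevel _ _ hσ, e₀]) (by
      rw [← one_mul (σ : Gal), hlevel 1 _ hσ, hone])
    show X σ ^ (classOdd W * k) = 1
    rw [hwd (X σ) 1 (by rw [← hX, h1, one_pow, map_one]), one_pow]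
  · obtain ⟨c, hc, hu, e⟩ := hv ℓ hℓ hℓ2 hg hodd P hP φ hφ I hI hmem
    show X φ ^ _ = ClassGroup.mk0 I ^ classOdd W ∨ X φ ^ _ = (ClassGroup.mk0 I ^ classOdd W)⁻¹
    rcases eq_or_eq_inv_of_add_inv_eq ((hsum φ).trans e) (e ▸ hu) with h | h
    · refine Or.inl (.trans (hwd _ (ClassGroup.mk0 I ^ 3) ?_) (hk _))
      rw [← hX, h, mul_pow, hc, one_mul, map_pow]
    · refine Or.inr (.trans (hwd _ ((ClassGroup.mk0 I)⁻¹ ^ 3) ?_) ((hk _).trans (inv_pow _ _)))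
      rw [← hX, h, inv_pow, mul_pow, hc, one_mul, map_pow, map_inv, inv_pow]

end Fermat.Agent.Two.Class

end
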