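import Fermat.Agent.Two.Class.ClassSeed
import Fermat.Agent.Two.Class.Map
import Fermat.Agent.Two.Class.Quad
import Fermat.Agent.Two.Class.Trace
import Fermat.Agent.Two.Eigen.Count
import Fermat.Agent.Two.Eigen.Form
import Fermat.Agent.Two.Galois.Cusp
import Fermat.Agent.Two.Lower.Span
import Fermat.Agent.Two.Lower.TateMod
import Fermat.Agent.Newforms.Basic
import Mathlib.Algebra.MvPolynomial.Eval
import Mathlib.RingTheory.Adjoin.Basic

/-!
# From the quaternionic seed to the classical Hecke algebra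

A complex point of the quaternionic Hecke algebra either has `T_{ℓ₀} = ℓ₀ + 1` or is the eigensystem
of a cusp form of level `badLevel W`, for a prime `ℓ₀ ≡ 1` modulo the level with odd trace.  As the
seed takes a unit value at `T_{ℓ₀} - ℓ₀ - 1`, it factors through the classical Hecke algebra.
-/

set_option autoImplicit false

noncomputable section

namespace Fermat.Agent.Two.Class

open CongruenceSubgroup UpperHalfPlane ModularFormClass Fermat.Agent.Deform
open scoped MatrixGroups ModularForm Manifold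

local notation "Q̄" => AlgebraicClosure ℚ

/-- The complex points separate a reduced finite free ring. -/
theorem eq_zero_of_points {T : Type*} [CommRing T] [Module.Free ℤ T] [Module.Finite ℤ T]
    [_root_.IsReduced T] {x : T} (h : ∀ l : T →+* ℂ, l x = 0) : x = 0 := by
  have h0 : (1 : ℂ) ⊗ₜ[ℤ] x = 0 := Eigen.eq_zero_of_evalAt fun l => by
    rw [Eigen.evalAt_tmul, h l, mul_zero]
  exact Algebra.TensorProduct.includeRight_injective (R := ℤ) (A := ℂ) (B := T) Int.cast_injective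
    (h0.trans (map_zero (Algebra.TensorProduct.includeRight (R := ℤ) (A := ℂ) (B := T))).symm)

theorem trace_of_noncommuting : ∀ a b c d e f g h : ZMod (2 ^ 1),
    a * d + b * c = 1 → e * h + f * g = 1 →
      ¬ (a * e + b * g = e * a + f * c ∧ a * f + b * h = e * b + f * d ∧
        c * e + d * g = g * a + h * c ∧ c * f + d * h = g * b + h * d) →
      (a * e + b * g) * (g * b + h * d) + (a * f + b * h) * (g * a + h * c) +
        (c * e + d * g) * (e * b + f * d) + (c * f + d * h) * (e * a + f * c) = 1 := by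
  decide

theorem one_of_unit_two : ∀ x : ZMod (2 ^ 1), IsUnit x → x = 1 := by decide

/-- The trace of the commutator of two elements of `SL₂(𝔽₂)` that do not commute. -/
theorem trace_commutator {X Y : Matrix (Fin 2) (Fin 2) (ZMod (2 ^ 1))} (hX : IsUnit X.det)
    (hY : IsUnit Y.det) (hne : X * Y ≠ Y * X) : (X * Y * (Y * X).adjugate).trace = 1 := by
  have neg_eq : ∀ x : ZMod (2 ^ 1), -x = x := by decide
  have one_of : ∀ x : ZMod (2 ^ 1), IsUnit x → x = 1 := by decide
  have h := trace_of_noncommuting (X 0 0) (X 0 1) (X 1 0) (X 1 1) (Y 0 0) (Y 0 1) (Y 1 0) (Y 1 1)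
    (by have := one_of _ hX; rwa [Matrix.det_fin_two, sub_eq_add_neg, neg_eq] at this)
    (by have := one_of _ hY; rwa [Matrix.det_fin_two, sub_eq_add_neg, neg_eq] at this)
    (fun ⟨h1, h2, h3, h4⟩ => hne (by
      ext i j
      fin_cases i <;> fin_cases j <;> simp [Matrix.mul_apply, Fin.sum_univ_two, *]))
  rw [← h, Matrix.adjugate_fin_two, Matrix.trace_fin_two]
  simp [Matrix.mul_apply, Fin.sum_univ_two, neg_eq]
  ring

variable {W : WeierstrassCurve ℤ}

/-- A prime congruent to one modulo the level, with odd trace and square discriminant. -/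
theorem exists_prime_one_mod (hW : TwoCurve W) :
    ∃ ℓ : ℕ, ℓ.Prime ∧ ℓ ≠ 2 ∧ W.IsGoodPrimeFor ℓ ∧ (ℓ : ZMod (badLevel W)) = 1 ∧
      IsSquare (W.Δ : ZMod ℓ) ∧ ¬ (2 : ℤ) ∣ W.apOfModel ℓ := by
  have : Fact (Nat.Prime 2) := ⟨Nat.prime_two⟩
  have hΔ := hW.Δ_ne_zero
  set ρ := Lower.tateMod (p := 2) hΔ 1
  have one_of : ∀ x : ZMod (2 ^ 1), IsUnit x → x = 1  := one_of_unit_two
  have hdet : ∀ g, IsUnit (ρ g).det := fun g =>
    (Group.isUnit g).map (Matrix.detMonoidHom.comp ρ)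
  obtain ⟨σ, τ, hne⟩ : ∃ σ τ, ρ σ * ρ τ ≠ ρ τ * ρ σ := by
    by_contra! hcomm
    have hall : ∀ x y : Matrix (Fin 2) (Fin 2) (ZMod (2 ^ 1)), x * y = y * x := by
      intro x y
      have hx : x ∈ Submodule.span (ZMod (2 ^ 1)) (Set.range ρ) :=
        (Lower.span_tateMod_one hW).symm ▸ Submodule.mem_top
      have hy : y ∈ Submodule.span (ZMod (2 ^ 1)) (Set.range ρ) :=
        (Lower.span_tateMod_one hW).symm ▸ Submodule.mem_top
      induction hx using Submodule.span_induction with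
      | mem x hx =>
        obtain ⟨σ, rfl⟩ := hx
        induction hy using Submodule.span_induction with
        | mem y hy => obtain ⟨τ, rfl⟩ := hy; exact hcomm σ τ
        | zero => simp
        | add a b _ _ ha hb => rw [mul_add, add_mul, ha, hb]
        | smul r a _ ha => rw [Matrix.mul_smul, Matrix.smul_mul, ha]
      | zero => simp
      | add a b _ _ ha hb => rw [mul_add, add_mul, ha, hb]
      | smul r a _ ha => rw [Matrix.mul_smul, Matrix.smul_mul, ha]
    have h01 := congrFun (congrFun (hall !![0, 1; 0, 0] !![0, 0; 1, 0]) 0) 0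
    simp at h01
  set C : Gal := σ * τ * (τ * σ)⁻¹
  have htr : (ρ C).trace = 1 := by
    refine Eq.trans ?_ (trace_commutator (hdet σ) (hdet τ) hne)
    have h2 : ρ C * (ρ τ * ρ σ) = ρ σ * ρ τ := by
      rw [← map_mul, ← map_mul, inv_mul_cancel_right, map_mul]
    have h1 : (ρ τ * ρ σ).det = 1 := by
      rw [Matrix.det_mul, one_of _ (hdet τ), one_of _ (hdet σ), mul_one]
    rw [← h2, mul_assoc, Matrix.mul_adjugate, h1, one_smul, mul_one]
  -- the commutator fixes the roots of unity and the square roots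
  have hfix : ∀ x : Q̄, σ (τ x) = τ (σ x) → C (τ (σ x)) = τ (σ x) := fun x hx => by
    show (σ * τ * (τ * σ)⁻¹) ((τ * σ) x) = τ (σ x)
    rw [← AlgEquiv.mul_apply, inv_mul_cancel_right]
    exact hx
  have hsq : ∀ y : Q̄, y ^ 2 = (W.Δ : Q̄) → C y = y := fun y hy => by
    have hpm : ∀ g : Gal, g y = y ∨ g y = -y := fun g => by
      rw [← sq_eq_sq_iff_eq_or_eq_neg, ← map_pow, hy, map_intCast]
    have hcomm : σ (τ y) = τ (σ y) := by
      rcases hpm σ with e | e <;> rcases hpm τ with e' | e' <;> simp [e, e']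
    have := hfix y hcomm
    rcases hpm τ with e | e <;> rcases hpm σ with e' | e' <;>
      simpa [e, e', neg_eq_iff_eq_neg] using this
  obtain ⟨ζ, hζ⟩ := HasEnoughRootsOfUnity.exists_primitiveRoot Q̄ (badLevel W)
  have hζ' : IsPrimitiveRoot (τ (σ ζ)) (badLevel W) :=
    hζ.map_of_injective (f := (τ * σ : Gal)) (τ * σ : Gal).injective
  obtain ⟨ω, hω, hCω⟩ : ∃ ω, IsPrimitiveRoot ω (badLevel W) ∧ C ω = ω := by
    refine ⟨τ (σ ζ), hζ', hfix ζ ?_⟩
    obtain ⟨i, -, hi⟩ := hζ.eq_pow_of_pow_eq_one (ξ := σ ζ) (by rw [← map_pow, hζ.pow_eq_one, map_one])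
    obtain ⟨j, -, hj⟩ := hζ.eq_pow_of_pow_eq_one (ξ := τ ζ) (by rw [← map_pow, hζ.pow_eq_one, map_one])
    rw [← hi, ← hj, map_pow, map_pow, ← hi, ← hj, ← pow_mul, ← pow_mul, mul_comm]
  obtain ⟨L, hL, hlevel⟩ := Lower.finite_level_tateMod (p := 2) hΔ 1
  have := hL
  have : FiniteDimensional ℚ (IntermediateField.adjoin ℚ {ω}) :=
    IntermediateField.adjoin.finiteDimensional (Algebra.IsIntegral.isIntegral ω)
  obtain ⟨ℓ, hℓ, hℓS, P, hP, φ, hφ, hag⟩ := exists_frobenius_level
    (L ⊔ IntermediateField.adjoin ℚ {ω} ⊔ quadField W) C ({2} ∪ (badLevel W).primeFactors)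
  have hℓ2 : ℓ ≠ 2 := fun e => hℓS (Finset.mem_union_left _ (Finset.mem_singleton.mpr e))
  have hℓN : ¬ ℓ ∣ badLevel W := fun hd => hℓS (Finset.mem_union_right _
    (Nat.mem_primeFactors.mpr ⟨hℓ, hd, (badLevel_pos W).ne'⟩))
  have hgood : W.IsGoodPrimeFor ℓ := fun hd => hℓN ((prime_dvd_badLevel_iff hΔ hℓ).mpr hd)
  refine ⟨ℓ, hℓ, hℓ2, hgood, ?_, (mem_galK_iff_isSquare hℓ hℓ2 hgood hP hφ).mp
    (mem_galK_iff.mpr fun y hy => ?_), fun hd => ?_⟩
  · have e : ω ^ ℓ = ω ^ 1 := by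
      rw [← Arith.frobenius_root hP hℓ hφ hω.pow_eq_one hℓN, hag ω ((le_sup_left : _ ≤ _ ⊔ quadField W)
        ((le_sup_right : _ ≤ L ⊔ _) (IntermediateField.mem_adjoin_simple_self ℚ ω))), hCω, pow_one]
    have h := (hω.isOfFinOrder (NeZero.ne _)).pow_eq_pow_iff_modEq.mp e
    rw [← hω.eq_orderOf] at h
    simpa using (ZMod.natCast_eq_natCast_iff _ _ _).mpr h
  · rw [hag y ((le_sup_right : quadField W ≤ _) (IntermediateField.subset_adjoin ℚ _ hy)), hsq y hy]
  · have hφC : ρ φ = ρ C := by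
      have : ρ (C⁻¹ * φ) = 1 := hlevel _ fun x hx => by
        rw [AlgEquiv.mul_apply, hag x ((le_sup_left : _ ≤ _ ⊔ quadField W)
          ((le_sup_left : L ≤ L ⊔ _) hx))]
        exact C.symm_apply_apply x
      rw [← mul_inv_cancel_left C φ, map_mul, this, mul_one]
    have h := (Lower.frobenius_tateMod (p := 2) hΔ 1 hℓ hgood hℓ2 hP hφ).1
    rw [show Lower.tateMod (p := 2) hΔ 1 φ = ρ φ from rfl, hφC, htr,
      (ZMod.intCast_zmod_eq_zero_iff_dvd _ _).mpr (by simpa using hd)] at h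
    exact one_ne_zero h

/-- An eigen modular form with `T_ℓ₀ ≠ ℓ₀ + 1` gives a cusp form with the same eigensystem. -/
theorem exists_cusp_eigen {N : ℕ} [NeZero N] {ι : Type*} (p : ι → ℕ) (hp : ∀ i, (p i).Prime)
    (hpN : ∀ i, ¬ p i ∣ N) (lam : ι → ℂ) {F : ModularForm (Gamma0 N) 2}
    (h1 : qCoeff F 1 ≠ 0)
    (heig : ∀ i, ∀ n : ℕ, 0 < n → qCoeff F (p i * n) +
      (if p i ∣ n then (p i : ℂ) * qCoeff F (n / p i) else 0) = lam i * qCoeff F n)
    {i₀ : ι} (hi₀ : (p i₀ : ZMod N) = 1) (hne : lam i₀ ≠ p i₀ + 1) :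
    ∃ Fc : CuspForm (Gamma0 N) 2, Fc ≠ 0 ∧
      ∀ i, CuspForm.heckeTLin 2 (hp i) (hpN i) Fc = lam i • Fc := by
  have hone : (1 : ℝ) ∈ ((Gamma0 N : Subgroup SL(2, ℤ)) : Subgroup (GL (Fin 2) ℝ)).strictPeriods := by
    simp
  have hF : RT.GammaH.HasCoeff ⇑F (qCoeff F) := fun τ => by
    simpa [smul_eq_mul, qCoeff] using ModularForm.hasSum_qExpansion F one_pos hone τ
  have hTc : ∀ i, RT.GammaH.HasCoeff (ModularForm.heckeT 2 (p i) ⇑F) fun n =>
      qCoeff F (p i * n) + if p i ∣ n then (p i : ℂ) * qCoeff F (n / p i) else 0 := fun i τ => by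
    have := Fact.mk (hp i)
    refine (P2MW.S_UpperHalfPlane_qCoeff_heckeU.M4cP1W2.hasSum_heckeT (hp i).ne_zero
      (by simpa using SlashInvariantFormClass.periodic_comp_ofComplex F hone)
      (ModularFormClass.holo F)
      (by simpa [SlashAction.slash_one] using ModularFormClass.bdd_at_infty_slash F (1 : SL(2, ℤ)))
      2 τ).congr_fun fun n => ?_
    simp only [ModularForm.coeffHeckeT_apply, smul_eq_mul, mul_comm (p i) n]
    norm_num
  -- the eigen relation holds as functions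
  have hfun : ∀ i, ModularForm.heckeT 2 (p i) ⇑F = lam i • ⇑F := fun i => by
    set G := ModularForm.heckeTLin 2 (hp i) (hpN i) F - lam i • F
    set b : ℕ → ℂ := fun n => (qCoeff F (p i * n) +
      if p i ∣ n then (p i : ℂ) * qCoeff F (n / p i) else 0) - lam i * qCoeff F n
    have hG : RT.GammaH.HasCoeff ⇑G b := (hTc i).sub (hF.smul (lam i))
    have hconst : ∀ τ, G τ = b 0 := fun τ => by
      refine (hG τ).unique ?_
      have : (fun n => b n * Function.Periodic.qParam 1 (τ : ℂ) ^ n) = Pi.single 0 (b 0) := by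
        ext n
        rcases n.eq_zero_or_pos with rfl | hn
        · simp
        · rw [Pi.single_eq_of_ne hn.ne', show b n = 0 from sub_eq_zero.mpr (heig i n hn), zero_mul]
      rw [this]
      exact hasSum_pi_single 0 (b 0)
    have hb : b 0 = 0 := by
      have hdet : (!![1, 0; (N : ℤ), 1] : Matrix (Fin 2) (Fin 2) ℤ).det = 1 := by
        simp [Matrix.det_fin_two_of]
      let γ : SL(2, ℤ) := ⟨_, hdet⟩
      have hγ : γ ∈ Gamma0 N := by rw [Gamma0_mem]; simp [γ]
      have hinv : (⇑G) ∣[(2 : ℤ)] γ = ⇑G :=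
        SlashInvariantFormClass.slash_action_eq G _ ⟨γ, hγ, rfl⟩
      have h := congrFun hinv UpperHalfPlane.I
      rw [ModularForm.SL_slash_apply, hconst, hconst] at h
      by_contra hb0
      have h2 : denom γ UpperHalfPlane.I ^ (-(2 : ℤ)) = (1 : ℂ) :=
        mul_left_cancel₀ hb0 (by rw [mul_one]; exact h)
      rw [zpow_neg, inv_eq_one, ModularGroup.denom_apply, zpow_two] at h2
      have h3 := congrArg Complex.im h2
      simp [γ] at h3
      exact NeZero.ne N (by exact_mod_cast h3)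
    have hzero : ⇑G = 0 := funext fun τ => by rw [hconst, hb]; rfl
    exact sub_eq_zero.mp hzero
  have hcoeff : ∀ i n, (qCoeff F (p i * n) +
      if p i ∣ n then (p i : ℂ) * qCoeff F (n / p i) else 0) = lam i * qCoeff F n := fun i n => by
    have h2 := (hfun i) ▸ hTc i
    exact (ModularFormClass.qExpansion_coeff_unique (f := lam i • F) one_pos hone
      (fun τ => by simpa [smul_eq_mul] using h2 τ) n).trans
      (ModularFormClass.qExpansion_coeff_unique (f := lam i • F) one_pos hone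
        (fun τ => by simpa [smul_eq_mul] using hF.smul (lam i) τ) n).symm
  -- the form of level `Γ₁(N)`
  let F₁ : ModularForm (Gamma1 N) 2 :=
    { toFun := ⇑F
      slash_action_eq' := fun A hA =>
        SlashInvariantFormClass.slash_action_eq F A (Subgroup.map_mono (Gamma1_in_Gamma0 N) hA)
      holo' := ModularFormClass.holo F
      bdd_at_cusps' := fun {c} hc => ModularFormClass.bdd_at_cusps F
        ((Subgroup.IsArithmetic.isCusp_iff_isCusp_SL2Z _).2
          ((Subgroup.IsArithmetic.isCusp_iff_isCusp_SL2Z _).1 hc)) }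
  have hneb : ∀ γ ∈ Gamma0 N, (⇑F₁) ∣[(2 : ℤ)] γ =
      (1 : DirichletCharacter ℂ N) ((γ 1 1 : ℤ) : ZMod N) • ⇑F₁ := fun γ hγ => by
    rw [MulChar.one_apply (DeligneSerre.isUnit_lowerRight hγ), one_smul]
    exact SlashInvariantFormClass.slash_action_eq F _ ⟨γ, hγ, rfl⟩
  have hcusp := Galois.isNeb_of_eigen F₁ hneb (a := qCoeff F) hF (hp i₀) hi₀ (c := lam i₀)
    (fun n => by
      rw [RT.GammaH.seqOp, RT.GammaH.nebWeight, hi₀, map_one, one_mul, mul_comm n]
      exact hcoeff i₀ n) hne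
  let Fc : CuspForm (Gamma0 N) 2 := Newforms.mkCusp ⇑F
    (fun γ hγ => SlashInvariantFormClass.slash_action_eq F _ ⟨γ, hγ, rfl⟩) hcusp.cusp
  refine ⟨Fc, fun h => h1 ?_, fun i => DFunLike.coe_injective ?_⟩
  · have h0 : ⇑F = 0 := congrArg DFunLike.coe h
    exact (ModularFormClass.qExpansion_coeff_unique (f := F) one_pos hone (c := fun _ => 0)
      (fun τ => by simp [h0]) 1).symm
  · exact hfun i

/-- A relation between the classical Hecke operators holds at a point with a cusp eigenform. -/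
theorem eval_eq_zero_of_cusp {N : ℕ} [NeZero N] {S : Set ℕ} {ι : Type*}
    (gC : ι → CuspForm.heckeAlgebra N 2 S) {T : Type*} [CommRing T] (gB : ι → T) (l : T →+* ℂ)
    {Fc : CuspForm (Gamma0 N) 2} (hne : Fc ≠ 0)
    (heig : ∀ i, (gC i : Module.End ℂ (CuspForm (Gamma0 N) 2)) Fc = l (gB i) • Fc)
    {P : MvPolynomial ι ℤ} (hP : MvPolynomial.eval₂Hom (Int.castRingHom _) gC P = 0) :
    l (MvPolynomial.eval₂Hom (Int.castRingHom T) gB P) = 0 := by
  have key : ∀ Q : MvPolynomial ι ℤ,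
      ((MvPolynomial.eval₂Hom (Int.castRingHom (CuspForm.heckeAlgebra N 2 S)) gC Q :
          CuspForm.heckeAlgebra N 2 S) : Module.End ℂ (CuspForm (Gamma0 N) 2)) Fc =
        l (MvPolynomial.eval₂Hom (Int.castRingHom T) gB Q) • Fc := by
    intro Q
    induction Q using MvPolynomial.induction_on with
    | C r =>
      simp only [eq_intCast, map_intCast]
      rw [SubringClass.coe_intCast, Module.End.intCast_apply, Int.cast_smul_eq_zsmul]
    | add P Q hP hQ =>
      rw [map_add, map_add, map_add, Subalgebra.coe_add, LinearMap.add_apply, hP, hQ, add_smul]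
    | mul_X P i hP =>
      rw [map_mul, map_mul, map_mul, MvPolynomial.eval₂Hom_X', MvPolynomial.eval₂Hom_X',
        Subalgebra.coe_mul, Module.End.mul_apply, heig, map_smul, hP, smul_smul, mul_comm]
  have h := key P
  rw [hP, ZeroMemClass.coe_zero, LinearMap.zero_apply, eq_comm, smul_eq_zero] at h
  exact h.resolve_right hne

/-- **The transfer.**  The seed on the quaternionic algebra gives one on the classical algebra. -/
theorem seedHom_of_classSeed (hW : TwoCurve W) (S : Brandt.Setup W (∅ : Finset ℕ))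
    (hseed : HasClassSeed S) : SeedHom W := by
  classical
  have hΔ := hW.Δ_ne_zero
  obtain ⟨B, _, _, _, κ, θB, hκ, hval⟩ := hseed
  have hH : Eigen.Hyp W (∅ : Finset ℕ) := ⟨hΔ, fun v hv => absurd hv (Finset.notMem_empty v)⟩
  let := Eigen.commRingHecke S hH
  have := Eigen.finite_hecke S
  have := Eigen.free_hecke S
  have := Eigen.isReduced_hecke S hH
  set L := badLevel W
  set S₀ : Finset ℕ := {2} ∪ L.primeFactors
  have hp : ∀ i : Eigen.GoodIdx W (∅ : Finset ℕ), (i.1 : ℕ).Prime := fun i => i.1.2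
  have hpN : ∀ i : Eigen.GoodIdx W (∅ : Finset ℕ), ¬ (i.1 : ℕ) ∣ L := fun i hd =>
    i.2.1 ((prime_dvd_badLevel_iff hΔ i.1.2).mp hd)
  have hpS : ∀ i : Eigen.GoodIdx W (∅ : Finset ℕ), (i.1 : ℕ) ∉ (↑S₀ : Set ℕ) := fun i hm => by
    rcases Finset.mem_union.mp (Finset.mem_coe.mp hm) with h | h
    · exact i.2.2.1 (Finset.mem_singleton.mp h)
    · exact hpN i (Nat.dvd_of_mem_primeFactors h)
  let gC : Eigen.GoodIdx W (∅ : Finset ℕ) → CuspForm.heckeAlgebra L 2 (↑S₀ : Set ℕ) :=
    fun i => CuspForm.heckeAlgebra.T (hp i) (hpN i) (hpS i)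
  let gB : Eigen.GoodIdx W (∅ : Finset ℕ) → Eigen.hecke S := fun i => Eigen.gen S (Sum.inl i)
  let πC := MvPolynomial.eval₂Hom (Int.castRingHom (CuspForm.heckeAlgebra L 2 (↑S₀ : Set ℕ))) gC
  let πB := MvPolynomial.eval₂Hom (Int.castRingHom (Eigen.hecke S)) gB
  have hsurj : Function.Surjective πC := by
    rintro ⟨x, hx⟩
    induction hx using Algebra.adjoin_induction with
    | mem x hx =>
      rcases hx with ⟨ℓ, hℓ, hℓN, hℓS, rfl⟩ | ⟨q, hqN, hq, hqS, rfl⟩
      · exact ⟨MvPolynomial.X ⟨⟨ℓ, hℓ⟩, fun hd => hℓN ((prime_dvd_badLevel_iff hΔ hℓ).mpr hd),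
          fun e => hℓS (Finset.mem_union_left _ (Finset.mem_singleton.mpr e)),
          Finset.notMem_empty ℓ⟩, MvPolynomial.eval₂Hom_X' _ _ _⟩
      · exact absurd (Finset.mem_union_right _ (Nat.mem_primeFactors.mpr ⟨hq, hqN, NeZero.ne L⟩)) hqS
    | algebraMap r =>
      exact ⟨MvPolynomial.C r, (MvPolynomial.eval₂Hom_C _ _ _).trans (Subtype.ext (by simp))⟩
    | add x y _ _ hx hy =>
      obtain ⟨a, ha⟩ := hx
      obtain ⟨b, hb⟩ := hy
      exact ⟨a + b, by rw [map_add, ha, hb]; rfl⟩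
    | mul x y _ _ hx hy =>
      obtain ⟨a, ha⟩ := hx
      obtain ⟨b, hb⟩ := hy
      exact ⟨a * b, by rw [map_mul, ha, hb]; rfl⟩
  obtain ⟨ℓ₀, hℓ₀, hℓ₀2, hg₀, hmod, hsq₀, hodd₀⟩ := exists_prime_one_mod hW
  let i₀ : Eigen.GoodIdx W (∅ : Finset ℕ) := ⟨⟨ℓ₀, hℓ₀⟩, hg₀, hℓ₀2, Finset.notMem_empty ℓ₀⟩
  obtain ⟨I, hI, hmem⟩ := exists_prime_above W hℓ₀
  obtain ⟨c, hc, hcval⟩ := (hval i₀).2.2 hsq₀ hodd₀ I hI hmem
  have hunit : IsUnit (θB (gB i₀)) := by
    show IsUnit (θB (Eigen.gen S (Sum.inl i₀)))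
    rw [hcval]
    refine isUnit_add_inv_of_cube_root hc (k := padicValNat 2
      (Nat.card (ClassGroup (NumberField.RingOfIntegers (quadField W))))) ?_
    rw [← map_pow, hκ, ← pow_mul,
      show 2 ^ padicValNat 2 (Nat.card (ClassGroup (NumberField.RingOfIntegers (quadField W)))) =
        classTwo W from rfl, classTwo_mul_classOdd, pow_card_eq_one']
  have hcast : θB ((ℓ₀ : Eigen.hecke S) + 1) = 0 := by
    rw [map_add, map_natCast, map_one, cast_eq_one_of_odd (hℓ₀.odd_of_ne_two hℓ₀2),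
      CharTwo.add_self_eq_zero]
  have hker : ∀ P, πC P = 0 → θB (πB P) = 0 := fun P hP => by
    have hzero : πB P * (gB i₀ - ((ℓ₀ : Eigen.hecke S) + 1)) = 0 := by
      refine eq_zero_of_points fun l => ?_
      rw [map_mul]
      by_cases he : l (gB i₀) = (ℓ₀ : ℂ) + 1
      · rw [map_sub, map_add, map_natCast, map_one, he, sub_self, mul_zero]
      obtain ⟨r, hr, hr12⟩ := S.exists_ramified
      obtain ⟨F, hF1, -, hFl⟩ := Eigen.exists_form (Λ := Eigen.lvl S) hr hr12 (Eigen.lvl_bad S)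
        (fun l : Eigen.GoodIdx W (∅ : Finset ℕ) => l.1)
        (fun v : Eigen.AuxIdx (∅ : Finset ℕ) => v.1)
        (fun l => Eigen.isSplitAt_good S hΔ hH.prime l) (fun v => S.special v.1 v.2) l
      have hlev : Brandt.Param.Sub.latticeLevel S.P = L := by simpa using S.level
      obtain ⟨F', hF'⟩ : ∃ F' : ModularForm (Gamma0 L) 2,
          ∀ n, qCoeff F' n = qCoeff F n := by
        have key : ∀ (N M : ℕ) (_ : N = M) (G : ModularForm (Gamma0 N) 2),
            ∃ G' : ModularForm (Gamma0 M) 2, ∀ n, qCoeff G' n = qCoeff G n := by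
          rintro N M rfl G
          exact ⟨G, fun _ => rfl⟩
        exact key _ _ hlev F
      obtain ⟨Fc, hFc, heig⟩ := exists_cusp_eigen
        (fun i : Eigen.GoodIdx W (∅ : Finset ℕ) => (i.1 : ℕ)) hp hpN (fun i => l (gB i))
        (F := F') (by rw [hF']; exact hF1) (fun i n hn => by simp only [hF']; exact hFl i n hn)
        (i₀ := i₀) hmod he
      rw [eval_eq_zero_of_cusp gC gB l hFc heig hP, zero_mul]
    have h := congrArg θB hzero
    rw [map_mul, map_zero, map_sub, hcast, sub_zero] at h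
    exact hunit.mul_left_eq_zero.mp h
  let θ := RingHom.liftOfSurjective πC hsurj ⟨θB.comp πB, fun P hP => hker P hP⟩
  have hθ : ∀ i, θ (gC i) = θB (gB i) := fun i => by
    have e1 : πC (MvPolynomial.X i) = gC i := MvPolynomial.eval₂Hom_X' _ _ _
    have e2 : πB (MvPolynomial.X i) = gB i := MvPolynomial.eval₂Hom_X' _ _ _
    rw [← e1, ← e2]
    exact RingHom.liftOfRightInverse_comp_apply _ _ _ ⟨θB.comp πB, fun P hP => hker P hP⟩ _
  refine ⟨B, inferInstance, inferInstance, inferInstance, κ, S₀, θ,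
    Finset.mem_union_left _ (Finset.mem_singleton_self 2), fun q hq => ?_, hκ,
    fun ℓ hℓ hℓN hℓS => ?_⟩
  · rcases Finset.mem_union.mp hq with h | h
    · exact Or.inl (Finset.mem_singleton.mp h)
    · exact Or.inr (Nat.dvd_of_mem_primeFactors h)
  · let i : Eigen.GoodIdx W (∅ : Finset ℕ) := ⟨⟨ℓ, hℓ⟩,
      fun hd => hℓN ((prime_dvd_badLevel_iff hΔ hℓ).mpr hd),
      fun e => hℓS (Finset.mem_union_left _ (Finset.mem_singleton.mpr e)), Finset.notMem_empty ℓ⟩
    rw [show θ (CuspForm.heckeAlgebra.T hℓ hℓN hℓS) = θB (Eigen.gen S (Sum.inl i)) from hθ i]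
    exact hval i

end Fermat.Agent.Two.Class

end
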