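import Fermat.Agent.Two.Class.TwoTorsion
import Fermat.Agent.ClassField.Density
import Fermat.Agent.Arith.Density.Frobenius
import Mathlib.FieldTheory.PrimitiveElement
import Mathlib.GroupTheory.Sylow

/-!
# The primes with odd trace generate the two-part of the class group

For a `TwoCurve` with `K = quadField W`, a quadratic character of the class group which is trivial
at the primes above the good primes `ℓ` with `a_ℓ` odd, outside a finite set, is trivial: these
primes have density `2 / 3` among the primes of degree one, and the kernel of a nontrivial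
character has density `1 / 2`.
-/

set_option autoImplicit false

noncomputable section

namespace Fermat.Agent.Two.Class

open NumberField Filter Topology IsDedekindDomain
open scoped nonZeroDivisors
open Fermat.Agent.Arith Fermat.Agent.Arith.Density Fermat.Agent.ClassField
open Fermat.Agent.Two.Lower

theorem card_isUnit_matrix :
    Nat.card {M : Matrix (Fin 2) (Fin 2) (ZMod (2 ^ 1)) // M.det = 1} ≤ 6 := by
  rw [Nat.card_eq_fintype_card]
  decide

theorem cube_of_trace : ∀ M : Matrix (Fin 2) (Fin 2) (ZMod (2 ^ 1)), M.det = 1 → M.trace = 1 →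
    M ^ 3 = 1 ∧ M ≠ 1 := by
  decide

theorem trace_of_cube : ∀ M : Matrix (Fin 2) (Fin 2) (ZMod (2 ^ 1)), M ^ 3 = 1 → M ≠ 1 →
    M.trace = 1 := by
  decide

theorem eq_one_of_isUnit_two : ∀ d : ZMod (2 ^ 1), IsUnit d → d = 1 := by decide

theorem eq_zero_of_ne_one_two : ∀ d : ZMod (2 ^ 1), d ≠ 1 → d = 0 := by decide

variable {W : WeierstrassCurve ℤ}

/-- A square of an element fixes the square roots of the discriminant. -/
theorem sq_mem_galK (σ : GQ) : σ ^ 2 ∈ galK W := by
  rw [galK, quadField, IntermediateField.mem_fixingSubgroup_iff]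
  intro y hy
  induction hy using IntermediateField.adjoin_induction with
  | algebraMap q => exact (σ ^ 2).commutes q
  | add a b _ _ ha hb => rw [map_add, ha, hb]
  | mul a b _ _ ha hb => rw [map_mul, ha, hb]
  | inv a _ ha => rw [map_inv₀, ha]
  | mem y hy =>
    have hy' : y ^ 2 = (W.Δ : AlgebraicClosure ℚ) := hy
    have hσy : σ y ^ 2 = y ^ 2 := by rw [← map_pow, hy', map_intCast]
    show (σ * σ) y = y
    rcases sq_eq_sq_iff_eq_or_eq_neg.mp hσy with h | h
    · rw [AlgEquiv.mul_apply, h, h]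
    · rw [AlgEquiv.mul_apply, h, map_neg, h, neg_neg]

/-- An element fixing the square roots fixes every embedding of `quadField`. -/
theorem comp_eq_of_mem_galK {σ : GQ} (hσ : σ ∈ galK W) (f : quadField W →ₐ[ℚ] QBar) :
    (σ : QBar →ₐ[ℚ] QBar).comp f = f := by
  refine IntermediateField.algHom_ext_of_eq_adjoin ℚ rfl fun y hy => ?_
  show σ (f ⟨y, _⟩) = f ⟨y, _⟩
  refine (IntermediateField.mem_fixingSubgroup_iff _ _).mp hσ _ ?_
  refine IntermediateField.subset_adjoin _ _ ?_
  show (f ⟨y, _⟩) ^ 2 = (W.Δ : QBar)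
  refine Eq.trans (map_pow f _ 2).symm (Eq.trans (congrArg f (Subtype.ext ?_)) (map_intCast f _))
  simpa using hy

theorem two_le_card_embeddings (hW : TwoCurve W) :
    2 ≤ Nat.card (quadField W →ₐ[ℚ] QBar) := by
  rw [Nat.card_eq_fintype_card, AlgHom.card]
  by_contra hlt
  have h1 : Module.finrank ℚ (quadField W) = 1 := by
    have := Module.finrank_pos (R := ℚ) (M := quadField W)
    omega
  obtain ⟨y, hy⟩ := IsAlgClosed.exists_pow_nat_eq (W.Δ : QBar) two_pos
  have hmem : y ∈ quadField W := IntermediateField.subset_adjoin _ _ hy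
  rw [IntermediateField.finrank_eq_one_iff.mp h1, IntermediateField.mem_bot] at hmem
  obtain ⟨q, rfl⟩ := hmem
  rw [← map_pow, ← map_intCast (algebraMap ℚ QBar)] at hy
  have hq : q ^ 2 = (W.Δ : ℚ) := (algebraMap ℚ QBar).injective hy
  have hneg : (W.Δ : ℚ) < 0 := Int.cast_lt_zero.mpr hW.Δ_neg
  nlinarith [sq_nonneg q]

/-- A set of primes of degree one, two over each rational prime, on which a nontrivial quadratic
character is trivial, has density at most `1 / 2`. -/
theorem sum_le_of_two_primes {K : Type*} [Field K] [NumberField K] [Fact (Nat.Prime 2)]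
    (ψ : ClassGroup (𝓞 K) →* Multiplicative (ZMod 2)) (hψ : ψ ≠ 1) (Q : ℕ → Prop)
    (hQ : ∀ ℓ, Q ℓ → 2 ≤ Nat.card {𝔭 : PrimeId K // Ideal.absNorm 𝔭.1 = ℓ})
    (hψQ : ∀ ℓ, Q ℓ → ∀ P : HeightOneSpectrum (𝓞 K), Ideal.absNorm P.asIdeal = ℓ →
      ψ (ClassGroup.mk0 (primeElt P)) = 1) :
    ∃ A : ℝ, ∀ᶠ s : ℝ in 𝓝[>] 1, ∀ F : Finset ℕ, (∀ ℓ ∈ F, Q ℓ) →
      4 * ∑ ℓ ∈ F, (ℓ : ℝ) ^ (-s) ≤ A - Real.log (s - 1) := by
  classical
  obtain ⟨A, hA⟩ := exists_character_bound (p := 2) ψ hψ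
  refine ⟨Real.log A, ?_⟩
  filter_upwards [hA, self_mem_nhdsWithin] with s hs (hs1 : 1 < s) F hF
  have hemb : ∀ ℓ : {ℓ // ℓ ∈ F}, Nonempty (Fin 2 ↪ {𝔭 : PrimeId K // Ideal.absNorm 𝔭.1 = ℓ.1}) := by
    intro ℓ
    have : Finite {I : Ideal (𝓞 K) // Ideal.absNorm I = ℓ.1} :=
      (Ideal.finite_setOfPred_absNorm_eq ℓ.1).to_subtype
    have : Finite {𝔭 : PrimeId K // Ideal.absNorm 𝔭.1 = ℓ.1} :=
      Finite.of_injective (β := {I : Ideal (𝓞 K) // Ideal.absNorm I = ℓ.1})
        (fun b => ⟨b.1.1, b.2⟩) fun b b' h => Subtype.ext (Subtype.ext (congrArg Subtype.val h :))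
    let := Fintype.ofFinite {𝔭 : PrimeId K // Ideal.absNorm 𝔭.1 = ℓ.1}
    refine Function.Embedding.nonempty_of_card_le ?_
    rw [Fintype.card_fin, ← Nat.card_eq_fintype_card]
    exact hQ ℓ.1 (hF ℓ.1 ℓ.2)
  choose e he using fun ℓ => (hemb ℓ).elim fun e => (⟨e, trivial⟩ : ∃ _ : _, True)
  let g : {ℓ // ℓ ∈ F} × Fin 2 → HeightOneSpectrum (𝓞 K) := fun x =>
    ⟨(e x.1 x.2).1.1, (e x.1 x.2).1.2.1, (e x.1 x.2).1.2.2⟩
  have hnorm : ∀ x, Ideal.absNorm (g x).asIdeal = x.1.1 := fun x => (e x.1 x.2).2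
  have hinj : Function.Injective g := by
    rintro ⟨ℓ, i⟩ ⟨ℓ', i'⟩ h
    obtain rfl : ℓ = ℓ' := Subtype.ext (by
      rw [← hnorm (ℓ, i), ← hnorm (ℓ', i'), h])
    have h' : (e ℓ i).1.1 = (e ℓ i').1.1 := congrArg HeightOneSpectrum.asIdeal h
    rw [(e ℓ).injective (Subtype.ext (Subtype.ext h'))]
  have hbound := hs ((Finset.univ : Finset _).image g) fun P hP => by
    obtain ⟨x, -, rfl⟩ := Finset.mem_image.mp hP
    exact hψQ x.1.1 (hF _ x.1.2) _ (hnorm x)
  rw [Finset.sum_image hinj.injOn, Fintype.sum_prod_type] at hbound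
  have hsum : (2 : ℝ) * ∑ x : {ℓ // ℓ ∈ F}, ∑ y : Fin 2, primeWeight (g (x, y)) s =
      4 * ∑ ℓ ∈ F, (ℓ : ℝ) ^ (-s) := by
    simp only [primeWeight, hnorm, Fin.sum_univ_two]
    rw [← Finset.sum_coe_sort F, Finset.mul_sum, Finset.mul_sum]
    exact Finset.sum_congr rfl fun x _ => by ring
  rw [Nat.cast_ofNat, hsum] at hbound
  have hpos : 0 < A := by
    have := lt_of_lt_of_le (Real.exp_pos _) hbound
    exact (div_pos_iff_of_pos_right (by linarith)).mp this
  have h1 := Real.log_le_log (Real.exp_pos _) hbound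
  rw [Real.log_exp, Real.log_div hpos.ne' (by linarith)] at h1
  exact h1

/-- **A quadratic character trivial at the primes with odd trace is trivial.** -/
theorem hom_eq_one_of_odd_trace (hW : TwoCurve W) (S : Finset ℕ)
    (η : ClassGroup (𝓞 (quadField W)) →* Multiplicative (ZMod 2))
    (h : ∀ ℓ : ℕ, ℓ.Prime → ℓ ≠ 2 → W.IsGoodPrimeFor ℓ → ℓ ∉ S → ¬ (2 : ℤ) ∣ W.apOfModel ℓ →
      ∀ I : (Ideal (𝓞 (quadField W)))⁰, (I : Ideal (𝓞 (quadField W))).IsPrime →
        (ℓ : 𝓞 (quadField W)) ∈ (I : Ideal (𝓞 (quadField W))) → η (ClassGroup.mk0 I) = 1) :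
    η = 1 := by
  classical
  have : Fact (Nat.Prime 2) := ⟨Nat.prime_two⟩
  by_contra hη
  have hΔ := hW.Δ_ne_zero
  set r := tateMod (p := 2) hΔ 1 with hr
  obtain ⟨L₀, hL₀, hL₀r⟩ := finite_level_tateMod (p := 2) hΔ 1
  -- the field of two-torsion
  let H : Subgroup GQ := galKer r
  have hopen : IsOpen (H : Set GQ) := isOpen_galKer_of_fixing L₀ hL₀r
  let L : IntermediateField ℚ QBar := IntermediateField.fixedField H
  have hfix : L.fixingSubgroup = H :=
    InfiniteGalois.fixingSubgroup_fixedField ⟨H, H.isClosed_of_isOpen hopen⟩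
  have : FiniteDimensional ℚ L :=
    (InfiniteGalois.isOpen_iff_finite L).mp (by rw [hfix]; exact hopen)
  have : IsGalois ℚ L := (InfiniteGalois.normal_iff_isGalois L).mp (by
    rw [hfix]; exact galKer_normal r)
  have hres : ∀ τ : GQ, AlgEquiv.restrictNormalHom L τ = 1 ↔ r τ = 1 := fun τ =>
    (MonoidHom.mem_ker.symm.trans (SetLike.ext_iff.mp (IntermediateField.restrictNormalHom_ker L) τ)).trans
      ((SetLike.ext_iff.mp hfix τ).trans mem_galKer)
  -- the determinant is trivial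
  have hdet : ∀ τ : GQ, (r τ).det = 1 := fun τ => by
    have hu : IsUnit (r τ).det := by
      have := (Group.isUnit τ).map r
      exact (Matrix.isUnit_iff_isUnit_det _).mp this
    exact eq_one_of_isUnit_two _ hu
  have hG : Nat.card Gal(L/ℚ) ≤ 6 := by
    choose sec hsec using AlgEquiv.restrictNormalHom_surjective (F := ℚ) (K₁ := L) QBar
    refine (Nat.card_le_card_of_injective
      (fun x => (⟨r (sec x), hdet _⟩ : {M : Matrix (Fin 2) (Fin 2) (ZMod (2 ^ 1)) // M.det = 1}))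
      fun x x' hx => ?_).trans card_isUnit_matrix
    have hx' : r (sec x) = r (sec x') := congrArg Subtype.val hx
    have h1 : r ((sec x')⁻¹ * sec x) = 1 := by
      rw [map_mul, hx', ← map_mul, inv_mul_cancel, map_one]
    have h2 := (hres _).mpr h1
    rw [map_mul, map_inv, hsec, hsec, inv_mul_eq_one] at h2
    exact h2.symm
  -- an element of order three
  obtain ⟨g, hg⟩ : ∃ g : GQ, (r g).trace = 1 := by
    by_contra hall
    have hle : Submodule.span (ZMod (2 ^ 1)) (Set.range r) ≤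
        LinearMap.ker (Matrix.traceLinearMap (Fin 2) (ZMod (2 ^ 1)) (ZMod (2 ^ 1))) := by
      rw [Submodule.span_le]
      rintro _ ⟨g, rfl⟩
      have hne : (r g).trace ≠ 1 := fun h1 => hall ⟨g, h1⟩
      exact eq_zero_of_ne_one_two _ hne
    rw [hr, span_tateMod_one hW, top_le_iff, LinearMap.ker_eq_top] at hle
    have := LinearMap.congr_fun hle (Matrix.single 0 0 1)
    simp at this
  obtain ⟨hg3, hg1⟩ := cube_of_trace _ (hdet g) hg
  set z := AlgEquiv.restrictNormalHom L g with hz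
  have hz3 : z ^ 3 = 1 := by
    rw [hz, ← map_pow, hres, map_pow, hg3]
  have hz1 : z ≠ 1 := fun h1 => hg1 ((hres g).mp h1)
  have horder : orderOf z = 3 := by
    have : Fact (Nat.Prime 3) := ⟨Nat.prime_three⟩
    exact orderOf_eq_prime hz3 hz1
  -- the qualifying primes
  obtain ⟨B, hB⟩ := exists_bound_good (quadField W)
  set B' : ℕ := max B (max 2 (max (S.sup id) W.Δ.natAbs)) with hB'
  set Q : ℕ → Prop := fun ℓ => B' < ℓ ∧ genCount L z ℓ ≠ 0 with hQdef
  have hgen : ∀ ℓ, Q ℓ → ℓ.Prime ∧ W.IsGoodPrimeFor ℓ ∧ ℓ ≠ 2 ∧ ℓ ∉ S ∧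
      ¬ (2 : ℤ) ∣ W.apOfModel ℓ ∧ frobAt ℓ ∈ galK W ∧ Good (quadField W) ℓ := by
    rintro ℓ ⟨hlt, hne⟩
    simp only [hB', max_lt_iff] at hlt
    have hℓ : ℓ.Prime := by
      by_contra hℓ
      exact hne (by simp [genCount, hℓ])
    have hgood : W.IsGoodPrimeFor ℓ := fun hdvd => by
      have := Nat.le_of_dvd (Int.natAbs_pos.mpr hΔ) (Int.natCast_dvd.mp hdvd)
      omega
    have hS : ℓ ∉ S := fun hmem => by
      have := Finset.le_sup (f := id) hmem
      simp only [id_eq] at this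
      omega
    obtain ⟨⟨x, hx⟩⟩ : Nonempty {x : Gal(L/ℚ) //
        Subgroup.zpowers (x⁻¹ * frobL L ℓ * x) = Subgroup.zpowers z} := by
      by_contra hemp
      rw [not_nonempty_iff] at hemp
      exact hne (by simp [genCount])
    have hord : orderOf (frobL L ℓ) = 3 := by
      rw [← horder, ← Nat.card_zpowers z, ← hx, Nat.card_zpowers]
      exact ((orderOf_injective (MulAut.conj x⁻¹).toMonoidHom (MulAut.conj x⁻¹).injective
        (frobL L ℓ)).symm.trans (by simp))
    have hF3 : r (frobAt ℓ) ^ 3 = 1 := by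
      rw [← map_pow, ← hres, map_pow, show AlgEquiv.restrictNormalHom L (frobAt ℓ) = frobL L ℓ
        from rfl, ← hord, pow_orderOf_eq_one]
    have hF1 : r (frobAt ℓ) ≠ 1 := fun h1 => by
      have : frobL L ℓ = 1 := (hres _).mpr h1
      rw [this, orderOf_one] at hord
      omega
    have ht := trace_of_cube _ hF3 hF1
    rw [(frobenius_tateMod (p := 2) hΔ 1 hℓ hgood (by omega) (exists_liesOverPrime hℓ).choose_spec
      (frobAt_spec hℓ)).1] at ht
    refine ⟨hℓ, hgood, by omega, hS, fun hdvd => ?_, ?_, hB ℓ hℓ (by omega)⟩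
    · rw [(ZMod.intCast_zmod_eq_zero_iff_dvd _ _).mpr (by simpa using hdvd)] at ht
      exact zero_ne_one ht
    · have h3 : frobAt ℓ ^ 3 ∈ galK W := mem_galK_of_tateMod_eq_one hΔ (by rw [← hr, map_pow, hF3])
      rwa [pow_succ' _ 2, (galK W).mul_mem_cancel_right (sq_mem_galK _)] at h3
  obtain ⟨A, hA⟩ := sum_le_of_two_primes η hη Q (fun ℓ hℓQ => by
      obtain ⟨hℓ, -, -, -, -, hK, hgoodK⟩ := hgen ℓ hℓQ
      rw [← card_fixed_embeddings (exists_liesOverPrime hℓ).choose_spec hℓ hgoodK (frobAt_spec hℓ)]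
      rw [Nat.card_congr (Equiv.subtypeUnivEquiv fun f => comp_eq_of_mem_galK hK f)]
      exact two_le_card_embeddings hW)
    (fun ℓ hℓQ P hP => by
      obtain ⟨hℓ, hgood, hℓ2, hS, hodd, -, -⟩ := hgen ℓ hℓQ
      refine h ℓ hℓ hℓ2 hgood hS hodd (primeElt P) P.isPrime ?_
      rw [coe_primeElt, ← hP]
      exact Ideal.absNorm_mem _)
  -- compare with the density of the Frobenius elements
  obtain ⟨C, hC⟩ := hasLogPole_genCount L z
  have hnn : ∀ n, 0 ≤ genCount L z n := fun n => by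
    simp only [genCount]
    split_ifs
    · exact div_nonneg (Nat.cast_nonneg _) (Nat.cast_nonneg _)
    · exact le_rfl
  have hle3 : ∀ n, genCount L z n ≤ 3 := fun n => by
    simp only [genCount, horder]
    split_ifs
    · rw [show Nat.totient 3 = 2 from Nat.totient_prime Nat.prime_three, Nat.cast_ofNat,
        div_le_iff₀ two_pos]
      calc (Nat.card {x : Gal(L/ℚ) //
            Subgroup.zpowers (x⁻¹ * frobL L n * x) = Subgroup.zpowers z} : ℝ)
          ≤ (Nat.card Gal(L/ℚ) : ℝ) := by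
            exact_mod_cast Nat.card_le_card_of_injective _ Subtype.val_injective
        _ ≤ 6 := by exact_mod_cast hG
        _ = _ := by norm_num
    · norm_num
  set E : ℝ := 3 * (B' + 1 : ℕ) with hE
  have ht : Tendsto (fun s : ℝ => -Real.log (s - 1)) (𝓝[>] (1 : ℝ)) atTop := by
    refine tendsto_neg_atBot_atTop.comp (Real.tendsto_log_nhdsGT_zero.comp ?_)
    rw [tendsto_nhdsWithin_iff]
    refine ⟨?_, eventually_nhdsWithin_of_forall fun s (hs : 1 < s) => sub_pos.mpr hs⟩
    have h1 : Continuous fun s : ℝ => s - 1 := by fun_prop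
    simpa using (h1.tendsto 1).mono_left nhdsWithin_le_nhds
  obtain ⟨s, hAs, ⟨hsum, habs⟩, hlog, hs⟩ := (hA.and (hC.and
    ((ht.eventually (eventually_gt_atTop (4 * (C + E) + 3 * A))).and
      (self_mem_nhdsWithin (a := (1 : ℝ)) (s := Set.Ioi 1))))).exists
  have hs1 : 1 < s := hs
  have hterm : ∀ n : ℕ, 0 ≤ (n : ℝ) ^ (-s) ∧ (n : ℝ) ^ (-s) ≤ 1 := fun n => by
    refine ⟨Real.rpow_nonneg (Nat.cast_nonneg n) _, ?_⟩
    rcases Nat.eq_zero_or_pos n with rfl | hn
    · rw [Nat.cast_zero, Real.zero_rpow (by linarith)]; exact zero_le_one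
    · exact Real.rpow_le_one_of_one_le_of_nonpos (by exact_mod_cast hn) (by linarith)
  have htsum : ∑' n, genCount L z n * (n : ℝ) ^ (-s) ≤ E + 3 / 4 * (A - Real.log (s - 1)) := by
    refine Real.tsum_le_of_sum_le (fun n => mul_nonneg (hnn n) (hterm n).1) fun F => ?_
    rw [← Finset.sum_filter_add_sum_filter_not F Q, add_comm E]
    refine add_le_add ?_ ?_
    · calc ∑ n ∈ F.filter Q, genCount L z n * (n : ℝ) ^ (-s)
          ≤ ∑ n ∈ F.filter Q, 3 * (n : ℝ) ^ (-s) := Finset.sum_le_sum fun n _ =>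
            mul_le_mul_of_nonneg_right (hle3 n) (hterm n).1
        _ ≤ _ := by
          rw [← Finset.mul_sum]
          linarith [hAs (F.filter Q) fun n hn => (Finset.mem_filter.mp hn).2]
    · refine le_trans ?_ (le_of_eq (show ∑ _n ∈ Finset.range (B' + 1), (3 : ℝ) = E by
        rw [Finset.sum_const, Finset.card_range, nsmul_eq_mul, hE, mul_comm]))
      rw [← Finset.sum_filter_add_sum_filter_not (F.filter fun n => ¬ Q n) (fun n => n ≤ B')]
      rw [Finset.sum_eq_zero (s := (F.filter fun n => ¬ Q n).filter fun n => ¬ n ≤ B')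
        (fun n hn => by
          simp only [Finset.mem_filter, hQdef, not_and, not_not, not_le] at hn
          rw [hn.1.2 hn.2, zero_mul]), add_zero]
      refine (Finset.sum_le_sum fun n _ => (mul_le_mul (hle3 n) (hterm n).2 (hterm n).1
        (by norm_num)).trans_eq (mul_one 3)).trans ?_
      refine Finset.sum_le_sum_of_subset_of_nonneg (fun n hn => ?_) fun _ _ _ => by norm_num
      rw [Finset.mem_range]
      exact Nat.lt_succ_of_le (Finset.mem_filter.mp hn).2
  rw [one_mul] at habs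
  have := (abs_le.mp habs).1
  linarith

/-- The `2`-parts of the classes of the primes with odd trace, outside a finite set. -/
def oddTraceClasses (W : WeierstrassCurve ℤ) (S : Finset ℕ) :
    Set (ClassGroup (𝓞 (quadField W))) :=
  {c | ∃ ℓ : ℕ, ℓ.Prime ∧ ℓ ≠ 2 ∧ W.IsGoodPrimeFor ℓ ∧ ℓ ∉ S ∧ ¬ (2 : ℤ) ∣ W.apOfModel ℓ ∧
    ∃ I : (Ideal (𝓞 (quadField W)))⁰, (I : Ideal (𝓞 (quadField W))).IsPrime ∧
      (ℓ : 𝓞 (quadField W)) ∈ (I : Ideal (𝓞 (quadField W))) ∧
      c = ClassGroup.mk0 I ^ (Nat.card (ClassGroup (𝓞 (quadField W))) / classTwo W)}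

/-- **The primes with odd trace generate the two-part of the class group.** -/
theorem closure_oddTraceClasses (hW : TwoCurve W) (S : Finset ℕ) :
    Subgroup.closure (oddTraceClasses W S) =
      (powMonoidHom (α := ClassGroup (𝓞 (quadField W)))
        (Nat.card (ClassGroup (𝓞 (quadField W))) / classTwo W)).range := by
  classical
  have : Fact (Nat.Prime 2) := ⟨Nat.prime_two⟩
  set G := ClassGroup (𝓞 (quadField W))
  set m := Nat.card G / classTwo W
  set R := (powMonoidHom (α := G) m).range with hR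
  refine le_antisymm ((Subgroup.closure_le _).mpr ?_) ?_
  · rintro _ ⟨_, -, -, -, -, -, I, -, -, rfl⟩
    exact ⟨ClassGroup.mk0 I, rfl⟩
  set T := Subgroup.closure (oddTraceClasses W S)
  by_contra hle
  have hcard : classTwo W * m = Nat.card G := Nat.mul_div_cancel' pow_padicValNat_dvd
  have hp : IsPGroup 2 R := by
    intro x
    obtain ⟨c, hc⟩ := x.2
    refine ⟨padicValNat 2 (Nat.card G), Subtype.ext ?_⟩
    show (x : G) ^ classTwo W = 1
    rw [← hc, powMonoidHom_apply, ← pow_mul, mul_comm, hcard]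
    exact pow_card_eq_one'
  set Q' := R ⧸ T.subgroupOf R
  have hQ : IsPGroup 2 Q' := hp.to_quotient _
  have : Nontrivial Q' := by
    by_contra hnt
    rw [not_nontrivial_iff_subsingleton] at hnt
    exact hle fun x hx => (QuotientGroup.eq_one_iff (N := T.subgroupOf R) ⟨x, hx⟩).mp
      (Subsingleton.elim _ _)
  obtain ⟨k, hk⟩ := IsPGroup.iff_card.mp hQ
  obtain ⟨k, rfl⟩ : ∃ j, k = j + 1 := Nat.exists_eq_succ_of_ne_zero fun h0 => by
    rw [h0, pow_zero] at hk
    exact (Finite.one_lt_card (α := Q')).ne' hk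
  obtain ⟨U, hU⟩ := Sylow.exists_subgroup_card_pow_prime 2 (G := Q') (n := k)
    (by rw [hk]; exact pow_dvd_pow 2 k.le_succ)
  have hidx : Nat.card (Q' ⧸ U) = 2 := by
    have := Subgroup.card_eq_card_quotient_mul_card_subgroup U
    rw [hk, hU, pow_succ'] at this
    exact (mul_right_cancel₀ (pow_ne_zero k two_ne_zero) this).symm
  let e : Q' ⧸ U ≃* Multiplicative (ZMod 2) :=
    mulEquivOfPrimeCardEq (p := 2) hidx (by simp)
  let η : G →* Multiplicative (ZMod 2) := e.toMonoidHom.comp ((QuotientGroup.mk' U).comp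
    ((QuotientGroup.mk' (T.subgroupOf R)).comp
      ((powMonoidHom (α := G) m).rangeRestrict : G →* R)))
  have hη : η = 1 := hom_eq_one_of_odd_trace hW S η fun ℓ hℓ hℓ2 hgood hS hodd I hI hmem => by
    have hT : (powMonoidHom (α := G) m).rangeRestrict (ClassGroup.mk0 I) ∈ T.subgroupOf R :=
      Subgroup.subset_closure ⟨ℓ, hℓ, hℓ2, hgood, hS, hodd, I, hI, hmem, rfl⟩
    show e (QuotientGroup.mk' U (QuotientGroup.mk' _ _)) = 1
    rw [show QuotientGroup.mk' (T.subgroupOf R) ((powMonoidHom (α := G) m).rangeRestrict (ClassGroup.mk0 I))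
      = 1 from (QuotientGroup.eq_one_iff _).mpr hT, map_one, map_one]
  have hsurj : Function.Surjective η := e.surjective.comp ((QuotientGroup.mk'_surjective U).comp
    ((QuotientGroup.mk'_surjective _).comp (MonoidHom.rangeRestrict_surjective _)))
  obtain ⟨x, hx⟩ := hsurj (Multiplicative.ofAdd 1)
  rw [hη, MonoidHom.one_apply] at hx
  exact absurd (congrArg Multiplicative.toAdd hx) (by simp)

/-- A subgroup containing the classes of the primes with odd trace contains the two-part. -/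
theorem pow_mem_of_odd_trace (hW : TwoCurve W) (S : Finset ℕ)
    (B : Subgroup (ClassGroup (𝓞 (quadField W))))
    (hB : ∀ ℓ : ℕ, ℓ.Prime → ℓ ≠ 2 → W.IsGoodPrimeFor ℓ → ℓ ∉ S → ¬ (2 : ℤ) ∣ W.apOfModel ℓ →
      ∀ I : (Ideal (𝓞 (quadField W)))⁰, (I : Ideal (𝓞 (quadField W))).IsPrime →
        (ℓ : 𝓞 (quadField W)) ∈ (I : Ideal (𝓞 (quadField W))) → ClassGroup.mk0 I ∈ B)
    (c : ClassGroup (𝓞 (quadField W))) :
    c ^ (Nat.card (ClassGroup (𝓞 (quadField W))) / classTwo W) ∈ B := by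
  have hc : c ^ (Nat.card (ClassGroup (𝓞 (quadField W))) / classTwo W) ∈
      Subgroup.closure (oddTraceClasses W S) := by
    rw [closure_oddTraceClasses hW S]
    exact ⟨c, rfl⟩
  refine (Subgroup.closure_le B).mpr ?_ hc
  rintro _ ⟨ℓ, hℓ, hℓ2, hgood, hS, hodd, I, hI, hmem, rfl⟩
  exact pow_mem (hB ℓ hℓ hℓ2 hgood hS hodd I hI hmem) _

end Fermat.Agent.Two.Class
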