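import Fermat.Agent.Two.Interface
import Fermat.Agent.Two.Lower.Span

/-!
# The field of two-torsion contains the square roots of the discriminant
-/

set_option autoImplicit false

noncomputable section

open scoped WeierstrassCurve.Affine
open Matrix
open ModularCurve Fermat.Agent.Arith
open Fermat.Agent.EC.Rep

namespace Fermat.Agent.Two.Class

open Fermat.Agent.Two.Lower

variable {W : WeierstrassCurve ℤ}

/-- Acting trivially on the two-torsion implies fixing the square roots of the discriminant. -/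
theorem mem_galK_of_tateMod_eq_one [Fact (Nat.Prime 2)] (hΔ : W.Δ ≠ 0) {σ : GQ}
    (hσ : tateMod (p := 2) hΔ 1 σ = 1) : σ ∈ galK W := by
  classical
  set E := (W.map (Int.castRingHom ℚ))⁄(AlgebraicClosure ℚ) with hE
  set P : Cubic ℚ := (W.map (Int.castRingHom ℚ)).twoTorsionPolynomial with hP
  set φ := algebraMap ℚ (AlgebraicClosure ℚ)
  have ha : P.a ≠ 0 := by
    show (4 : ℚ) ≠ 0
    norm_num
  obtain ⟨e₁, e₂, e₃, h3⟩ := (Cubic.splits_iff_roots_eq_three (φ := φ) ha).mp
    (IsAlgClosed.splits _)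
  have hb : E.b₂ = (W.b₂ : AlgebraicClosure ℚ) ∧ E.b₄ = (W.b₄ : AlgebraicClosure ℚ) ∧
      E.b₆ = (W.b₆ : AlgebraicClosure ℚ) := by
    refine ⟨?_, ?_, ?_⟩ <;>
      simp [hE, WeierstrassCurve.baseChange, WeierstrassCurve.map_b₂, WeierstrassCurve.map_b₄,
        WeierstrassCurve.map_b₆]
  have hEΔ : E.Δ ≠ 0 := by
    rw [hE]
    show ((W.map (Int.castRingHom ℚ)).map _).Δ ≠ 0
    rw [WeierstrassCurve.map_Δ, WeierstrassCurve.map_Δ, eq_intCast, map_intCast]
    exact Int.cast_ne_zero.mpr hΔ
  -- each root is fixed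
  have hfix : ∀ x ∈ (P.map φ).roots, σ x = x := by
    intro x hx
    rw [Cubic.mem_roots_iff (Cubic.ne_zero_of_a_ne_zero ((map_ne_zero φ).mpr ha))] at hx
    simp only [Cubic.map, hP, WeierstrassCurve.twoTorsionPolynomial, WeierstrassCurve.map_b₂,
      WeierstrassCurve.map_b₄, WeierstrassCurve.map_b₆, eq_intCast, map_intCast, map_mul,
      map_ofNat] at hx
    have hpt : E.toAffine.Equation x (-(E.a₁ * x + E.a₃) / 2) := by
      rw [WeierstrassCurve.Affine.equation_iff]
      rw [← hb.1, ← hb.2.1, ← hb.2.2, WeierstrassCurve.b₂, WeierstrassCurve.b₄,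
        WeierstrassCurve.b₆] at hx
      field_simp
      linear_combination (-1 : AlgebraicClosure ℚ) * hx
    set pt : PtQ W := WeierstrassCurve.Affine.Point.some _ _
      ((E.toAffine.equation_iff_nonsingular_of_Δ_ne_zero hEΔ).mp hpt) with hpt'
    have h2 : (2 : ℤ) • pt = 0 := by
      rw [two_zsmul, add_eq_zero_iff_eq_neg, hpt', WeierstrassCurve.Affine.Point.neg_some]
      simp only [WeierstrassCurve.Affine.Point.some.injEq, WeierstrassCurve.Affine.negY, true_and]
      show -(E.a₁ * x + E.a₃) / 2 = -(-(E.a₁ * x + E.a₃) / 2) - E.a₁ * x - E.a₃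
      ring
    obtain ⟨v, hv⟩ := exists_tateRed_eq (p := 2) hΔ 1 (x := pt) (by rw [pow_one]; exact h2)
    set B := tateBas (p := 2) hΔ
    have hred0 : tateRed hΔ 1 ((tateRep W 2 hΔ).ρ σ v - v) = 0 := by
      refine ((tateBasis W 2 hΔ).red_eq_zero_iff 1 _).mpr ?_
      have hcoord : ∀ i, PadicInt.toZModPow 1 (B.repr ((tateRep W 2 hΔ).ρ σ v - v) i) = 0 := by
        intro i
        have h1 : tateMat (p := 2) hΔ σ *ᵥ (B.repr v) = B.repr ((tateRep W 2 hΔ).ρ σ v) :=
          LinearMap.toMatrix_mulVec_repr B B _ v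
        have h4 := congrFun (congrArg (fun M => M *ᵥ fun i => PadicInt.toZModPow 1 (B.repr v i)) hσ) i
        rw [Matrix.one_mulVec] at h4
        rw [map_sub, Finsupp.sub_apply, map_sub, ← h1, sub_eq_zero]
        exact (RingHom.map_mulVec _ _ _ i).trans h4
      rw [← PadicInt.ker_toZModPow]
      exact ⟨hcoord 0, hcoord 1⟩
    rw [map_sub, red_tateRep, sub_eq_zero, hv] at hred0
    simp only [hpt', WeierstrassCurve.Affine.Point.algEquiv_smul_def,
      WeierstrassCurve.Affine.Point.map_some, WeierstrassCurve.Affine.Point.some.injEq] at hred0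
    exact hred0.1
  rw [h3] at hfix
  simp only [Multiset.insert_eq_cons, Multiset.mem_cons, Multiset.mem_singleton,
    forall_eq_or_imp, forall_eq] at hfix
  obtain ⟨f1, f2, f3⟩ := hfix
  rw [galK, quadField, IntermediateField.mem_fixingSubgroup_iff]
  intro y hy
  induction hy using IntermediateField.adjoin_induction with
  | algebraMap q => exact σ.commutes q
  | add a b _ _ ha hb => rw [map_add, ha, hb]
  | mul a b _ _ ha hb => rw [map_mul, ha, hb]
  | inv a _ ha => rw [map_inv₀, ha]
  | mem y hy =>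
    have hD : φ P.discr = 16 * (W.Δ : AlgebraicClosure ℚ) := by
      rw [hP, WeierstrassCurve.twoTorsionPolynomial_discr, WeierstrassCurve.map_Δ, eq_intCast,
        map_mul, map_ofNat, map_intCast]
    rw [Cubic.discr_eq_prod_three_roots ha h3,
      show φ P.a = 4 from map_ofNat φ 4] at hD
    have hy2 : y ^ 2 = (4 * ((e₁ - e₂) * (e₁ - e₃) * (e₂ - e₃))) ^ 2 := by
      rw [show y ^ 2 = (W.Δ : AlgebraicClosure ℚ) from hy]
      linear_combination (-1 / 16 : AlgebraicClosure ℚ) * hD
    rcases sq_eq_sq_iff_eq_or_eq_neg.mp hy2 with rfl | rfl <;>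
      simp only [map_neg, map_mul, map_sub, map_ofNat, f1, f2, f3]

end Fermat.Agent.Two.Class
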