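import Fermat.Agent.Two.NormIndex.Main
import Fermat.Agent.ClassField.KummerPlaces
import Fermat.Agent.Arith.Chebotarev.Main

/-!
# Norms of ideal classes between subfields of the algebraic closure

For subfields `K ≤ M` of the algebraic closure of `ℚ`: unramifiedness and the Galois group of
`M / K` read in the absolute Galois group, and the norm of the prime at a place whose Frobenius
fixes `M`.
-/

set_option autoImplicit false

noncomputable section

namespace Fermat.Agent.Two.Class

open NumberField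
open Fermat.Agent.Arith Fermat.Agent.ClassField
open scoped NumberField Pointwise nonZeroDivisors

variable {K M : IntermediateField ℚ QBar} [Algebra K M]

/-- The restriction to `M` of the elements of a group fixing `K`, as automorphisms over `K`. -/
theorem exists_restrictHom [Normal ℚ M] (hKM : ∀ x : K, ((algebraMap K M x : M) : QBar) = x)
    {G : Type*} [Group G] (i : G →* GQ) (hi : ∀ g, ∀ x ∈ K, i g x = x) :
    ∃ Φ : G →* (M ≃ₐ[K] M), ∀ g (x : M), ((Φ g x : M) : QBar) = i g (x : QBar) := by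
  refine ⟨{ toFun := fun g => AlgEquiv.ofRingEquiv
              (f := ((i g).restrictNormal M).toRingEquiv) fun c => Subtype.ext ?_
            map_one' := ?_
            map_mul' := fun g h => ?_ }, fun g x => ?_⟩
  · refine (AlgEquiv.restrictNormal_commutes (i g) M (algebraMap K M c)).trans ?_
    show i g ((algebraMap K M c : M) : QBar) = ((algebraMap K M c : M) : QBar)
    rw [hKM]
    exact hi g c c.2
  · refine AlgEquiv.ext fun x => Subtype.ext ?_
    refine (AlgEquiv.restrictNormal_commutes (i 1) M x).trans ?_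
    rw [map_one]
    rfl
  · refine AlgEquiv.ext fun x => Subtype.ext ?_
    refine (AlgEquiv.restrictNormal_commutes (i (g * h)) M x).trans ?_
    rw [map_mul]
    show i g (i h (x : QBar)) = _
    rw [← show ((i h).restrictNormal M x : M) = (i h) (x : QBar) from
      AlgEquiv.restrictNormal_commutes (i h) M x]
    exact (AlgEquiv.restrictNormal_commutes (i g) M _).symm
  · exact AlgEquiv.restrictNormal_commutes (i g) M x

/-- Every automorphism over `K` comes from an element fixing `K`. -/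
theorem exists_fixing_restrict [Normal ℚ M] [IsScalarTower ℚ K M]
    (hKM : ∀ x : K, ((algebraMap K M x : M) : QBar) = x) (τ : M ≃ₐ[K] M) :
    ∃ g : GQ, (∀ x ∈ K, g x = x) ∧ ∀ x : M, g (x : QBar) = ((τ x : M) : QBar) := by
  obtain ⟨g, hg⟩ := AlgEquiv.restrictNormalHom_surjective (K₁ := M) QBar (τ.restrictScalars ℚ)
  have hgx : ∀ x : M, g (x : QBar) = ((τ x : M) : QBar) := fun x => by
    have := AlgEquiv.restrictNormal_commutes g M x
    rw [show g.restrictNormal M = τ.restrictScalars ℚ from hg] at this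
    exact this.symm
  refine ⟨g, fun x hx => ?_, hgx⟩
  have h := hgx (algebraMap K M ⟨x, hx⟩)
  rwa [τ.commutes, hKM] at h

/-- If the inertia elements fixing `K` fix `M`, then `M / K` is unramified. -/
theorem unramified_of_inertia [NumberField K] [NumberField M] [IsGalois ℚ M] [IsScalarTower ℚ K M]
    [IsGalois K M] (hKM : ∀ x : K, ((algebraMap K M x : M) : QBar) = x)
    (h : ∀ q : ℕ, q.Prime → ∀ A : ValuationSubring QBar, A.LiesOverPrime q →
      ∀ g ∈ A.inertiaSubgroupIn ℚ, (∀ x ∈ K, g x = x) → ∀ x ∈ M, g x = x) :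
    NormIndex.Unramified K M := by
  intro R hR
  have hR0 : R ≠ ⊥ := Ring.ne_bot_of_isMaximal_of_not_isField hR (RingOfIntegers.not_isField K)
  obtain ⟨Q, hQ, hQR⟩ := Ideal.exists_maximal_ideal_liesOver_of_isIntegral (S := 𝓞 M) R
  have hQ0 : Q ≠ ⊥ := Ideal.ne_bot_of_liesOver_of_ne_bot hR0 Q
  obtain ⟨q, hq, -, A, hA, hAQ⟩ := exists_centreAt_eq M hQ0
  have htriv : ∀ τ ∈ Q.inertia (M ≃ₐ[K] M), τ = 1 := fun τ hτ => by
    obtain ⟨g, hg, hgx, hgK⟩ :=
      exists_inertia_of_mem_inertia hA hq hKM τ (by rw [hAQ]; exact hτ)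
    exact AlgEquiv.ext fun x => Subtype.ext ((hgx x).symm.trans (h q hq A hA g hg hgK x x.2))
  have : Finite (𝓞 K ⧸ R) := Ideal.finiteQuotientOfFreeOfNeBot R hR0
  have : Finite R.ResidueField := IsLocalization.finite _ (nonZeroDivisors (𝓞 K ⧸ R))
  have : PerfectField R.ResidueField := PerfectField.ofFinite
  rw [← Ideal.card_inertia_eq_ramificationIdxIn (G := M ≃ₐ[K] M) R Q,
    (Subgroup.eq_bot_iff_forall _).mpr htriv]
  exact Subgroup.card_bot

/-- If the Frobenius at a place fixes `M`, the prime of `M` there has as norm the prime of `K`. -/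
theorem relNorm_centreAt [NumberField K] [NumberField M] [IsGalois K M]
    (hKM : ∀ x : K, ((algebraMap K M x : M) : QBar) = x) {ℓ : ℕ} (hℓ : ℓ.Prime)
    {A : ValuationSubring QBar} (hA : A.LiesOverPrime ℓ) {σ : GQ} (hσ : A.IsFrobeniusAt σ ℓ)
    (hfix : ∀ x ∈ M, σ x = x) :
    Ideal.relNorm (𝓞 K) (centreAt A M) = centreAt A K := by
  have : Fact ℓ.Prime := ⟨hℓ⟩
  have : (centreAt A M).IsMaximal := centreAt_isMaximal hA hℓ
  have : (centreAt A K).IsMaximal := centreAt_isMaximal hA hℓ
  have : (centreAt A M).LiesOver (centreAt A K) := ⟨by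
    ext x
    rw [Ideal.under_def, Ideal.mem_comap, mem_centreAt, mem_centreAt]
    exact Iff.of_eq (congrArg (· ∈ A.nonunits) (hKM x).symm)⟩
  rw [Ideal.relNorm_eq_pow_of_isMaximal (centreAt A M) (centreAt A K)]
  suffices (centreAt A M).inertiaDeg (𝓞 K) = 1 by rw [this, pow_one]
  have hpow : ∀ x : 𝓞 M, x ^ ℓ - x ∈ centreAt A M := fun x => by
    have h1 := (isFrobeniusAt_iff hA hℓ).mp hσ ((x : M) : QBar)
      ((x.2 : IsIntegral ℤ (x : M)).map M.val.toRingHom.toIntAlgHom)
    rw [hfix _ (x : M).2] at h1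
    rw [← neg_sub, neg_mem_iff, mem_centreAt]
    simpa using h1
  have hsurj : Function.Surjective
      (algebraMap (𝓞 K ⧸ centreAt A K) (𝓞 M ⧸ centreAt A M)) := fun y => by
    obtain ⟨x, rfl⟩ := Ideal.Quotient.mk_surjective y
    obtain ⟨m, hm⟩ := exists_natCast_sub_mem_of_pow (natCast_mem_centreAt hA) (hpow x)
    refine ⟨m, ?_⟩
    rw [map_natCast, ← map_natCast (Ideal.Quotient.mk (centreAt A M))]
    exact (Ideal.Quotient.eq.mpr hm).symm
  let : Field (𝓞 K ⧸ centreAt A K) := Ideal.Quotient.field (centreAt A K)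
  rw [Ideal.inertiaDeg_eq_of_isMaximal (centreAt A K) (centreAt A M)]
  refine le_antisymm ?_ Module.finrank_pos
  refine finrank_le_one (v := (1 : 𝓞 M ⧸ centreAt A M)) fun y => ?_
  obtain ⟨c, rfl⟩ := hsurj y
  exact ⟨c, (Algebra.algebraMap_eq_smul_one c).symm⟩

/-- The `n`-th power of a class is a norm, `n` the degree. -/
theorem pow_card_mem_range [NumberField K] [NumberField M] [IsGalois K M]
    (c : ClassGroup (𝓞 K)) :
    c ^ Nat.card (M ≃ₐ[K] M) ∈ (NormIndex.clNorm K M).range := by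
  obtain ⟨I, rfl⟩ := ClassGroup.mk0_surjective c
  have hI : (I : Ideal (𝓞 K)).map (algebraMap (𝓞 K) (𝓞 M)) ≠ ⊥ :=
    map_ideal_ne_bot (nonZeroDivisors.ne_zero I.2)
  refine ⟨ClassGroup.mk0 ⟨_, mem_nonZeroDivisors_of_ne_zero hI⟩, ?_⟩
  rw [NormIndex.clNorm_mk0, ← map_pow]
  congr 1
  refine Subtype.ext ?_
  show Ideal.relNorm (𝓞 K) _ = _
  rw [Ideal.relNorm_algebraMap, IsGalois.card_aut_eq_finrank, SubmonoidClass.coe_pow]
  congr 1
  exact (IsFractionRing.finrank_eq (𝓞 K) K (𝓞 M) M).symm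

/-- Chebotarev: every element is, up to an element fixing a given finite extension, a Frobenius
element at an arbitrarily large prime. -/
theorem exists_frobenius_fix (L : IntermediateField ℚ QBar) [FiniteDimensional ℚ L] (g : GQ)
    (S : Finset ℕ) : ∃ ℓ : ℕ, ℓ.Prime ∧ ℓ ∉ S ∧ ∃ A : ValuationSubring QBar, A.LiesOverPrime ℓ ∧
      ∃ σ : GQ, A.IsFrobeniusAt σ ℓ ∧ ∀ x ∈ L, (g⁻¹ * σ) x = x := by
  let L' : IntermediateField ℚ QBar := IntermediateField.normalClosure ℚ L QBar
  have : Normal ℚ L' := normalClosure.normal ℚ L QBar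
  have : IsGalois ℚ L' := ⟨⟩
  obtain ⟨ℓ, hℓ, hℓS, A, hA, σ, hσ, heq⟩ :=
    Arith.Chebotarev.exists_frobenius_restrict_eq L' g S
  exact ⟨ℓ, hℓ, hℓS, A, hA, σ, hσ, fun x hx =>
    (Arith.Chebotarev.restrictNormalHom_eq_one_iff L').mp
      (by rw [map_mul, map_inv, heq, inv_mul_cancel]) x (L.le_normalClosure hx)⟩

end Fermat.Agent.Two.Class

end
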