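import Mathlib.Algebra.CharP.Two
import Mathlib.GroupTheory.Index
import Mathlib.RingTheory.LocalRing.Basic
import Mathlib.Algebra.Group.Units.Hom
import Mathlib.Algebra.CharP.Lemmas
import Mathlib.Tactic.Group
import Mathlib.Tactic.LinearCombination

/-!
# Dihedral trace functions in characteristic two

A function on a group satisfying the identities of the trace of a two-dimensional representation
of determinant one in characteristic two, zero off a normal subgroup `H`, is `a + a⁻¹` on `H` for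
a homomorphism `a`, as soon as one value on `H` is a unit with a root of `X² + t X + 1`.
-/

set_option autoImplicit false

noncomputable section

namespace Fermat.Agent.Two.Class

variable {G : Type*} [Group G] {B : Type*} [CommRing B]

/-- The identities of the trace of a representation of determinant one, induced from `H`, in
characteristic two. -/
structure TraceLike (H : Subgroup G) (t : G → B) : Prop where
  map_mul_comm : ∀ σ τ, t (σ * τ) = t (τ * σ)
  key : ∀ σ τ, t (σ * τ) + t (σ * τ⁻¹) = t σ * t τ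
  map_one : t 1 = 0
  off : ∀ g, g ∉ H → t g = 0

namespace TraceLike

variable {H : Subgroup G} {t : G → B} (h : TraceLike H t) [CharP B 2]

include h

theorem map_inv (τ : G) : t τ⁻¹ = t τ := by
  have := h.key 1 τ
  rw [one_mul, one_mul, h.map_one, zero_mul] at this
  exact (CharTwo.add_eq_zero.mp this).symm

theorem map_sq (σ : G) : t (σ * σ) = t σ * t σ := by
  rw [← h.key σ σ, mul_inv_cancel, h.map_one, add_zero]

variable [H.Normal] {g : G} (hg : g ∉ H)

include hg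

theorem map_mul_conj {σ τ : G} (hσ : σ ∈ H) (hτ : τ ∈ H) :
    t (σ * (g * τ * g⁻¹)) = t (σ * τ⁻¹) := by
  have aux : ∀ σ ∈ H, ∀ τ ∈ H, t (σ * (g * τ * g⁻¹) * (g * g)) = t (σ * τ⁻¹) :=
      fun σ hσ τ _ => by
    have hx : σ * g ∉ H := fun hh => hg (by
      simpa using H.mul_mem (H.inv_mem hσ) hh)
    have := h.key (σ * g) (τ * g)
    rw [h.off _ hx, zero_mul, CharTwo.add_eq_zero] at this
    rw [show σ * g * (τ * g) = σ * (g * τ * g⁻¹) * (g * g) by group] at this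
    rw [this]
    congr 1
    group
  have hsq : ∀ x ∈ H, t (x * (g * g)) = t x := fun x hx => by
    simpa using aux x hx 1 H.one_mem
  rw [← aux σ hσ τ hτ, hsq]
  exact H.mul_mem hσ (Subgroup.Normal.conj_mem ‹_› τ hτ g)

theorem map_mul_swap {σ a b : G} (hσ : σ ∈ H) (ha : a ∈ H) (hb : b ∈ H) :
    t (σ * (a * b)) = t (σ * (b * a)) := by
  have hconj : ∀ x ∈ H, g * x * g⁻¹ ∈ H := fun x hx => Subgroup.Normal.conj_mem ‹_› x hx g
  have aux : ∀ σ ∈ H, ∀ a ∈ H, ∀ b ∈ H, t (σ * (b⁻¹ * a⁻¹)) = t (σ * (a⁻¹ * b⁻¹)) :=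
      fun σ hσ a ha b hb => by
    rw [← mul_inv_rev, ← h.map_mul_conj hg hσ (H.mul_mem ha hb),
      show σ * (g * (a * b) * g⁻¹) = σ * (g * a * g⁻¹) * (g * b * g⁻¹) by group,
      h.map_mul_conj hg (H.mul_mem hσ (hconj a ha)) hb, h.map_mul_comm, ← mul_assoc,
      h.map_mul_conj hg (H.mul_mem (H.inv_mem hb) hσ) ha, mul_assoc, h.map_mul_comm, mul_assoc]
  have := aux σ hσ b⁻¹ (H.inv_mem hb) a⁻¹ (H.inv_mem ha)
  simpa using this

theorem map_mul_left_comm {σ a b : G} (hσ : σ ∈ H) (ha : a ∈ H) (hb : b ∈ H) :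
    t (a * σ * b) = t (σ * (a * b)) := by
  rw [h.map_mul_comm, ← mul_assoc, h.map_mul_comm, h.map_mul_swap hg hσ hb ha]

variable {s : G} (hs : s ∈ H) {T β : B} (hT : t s = T) (hβ : β * β = T * β + 1)

include hs hT hβ

/-- The multiplicativity of `σ ↦ t (s σ) + β t σ`. -/
theorem char_mul {σ τ : G} (hσ : σ ∈ H) (hτ : τ ∈ H) :
    (t (s * σ) + β * t σ) * (t (s * τ) + β * t τ) =
      T * (t (s * (σ * τ)) + β * t (σ * τ)) := by
  have hστ := H.mul_mem hσ hτ
  have h1 : t (s * σ) * t (s * τ) = t (s * (s * (σ * τ))) + t (σ * τ⁻¹) := by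
    rw [← h.key, show s * σ * (s * τ) = s * (σ * s) * τ by group,
      show s * σ * (s * τ)⁻¹ = s * (σ * τ⁻¹) * s⁻¹ by group]
    congr 1
    · rw [h.map_mul_comm, ← mul_assoc τ, h.map_mul_swap hg (H.mul_mem hτ hs) hσ hs,
        show τ * s * (s * σ) = τ * (s * (s * σ)) by group, h.map_mul_comm τ]
      congr 1
      group
    · rw [h.map_mul_comm]
      congr 1
      group
  have h2 : t σ * t τ = t (σ * τ) + t (σ * τ⁻¹) := (h.key σ τ).symm
  have h3 : t (s * (σ * τ)) * T = t (s * (s * (σ * τ))) + t (σ * τ) := by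
    rw [← hT, ← h.key, h.map_mul_comm (s * (σ * τ)) s]
    congr 1
    rw [h.map_mul_comm]
    congr 1
    group
  have h4 : t (s * σ) * t τ = t (s * (σ * τ)) + t (s * (σ * τ⁻¹)) := by
    rw [← h.key, mul_assoc, mul_assoc]
  have h5 : t σ * t (s * τ) = t (s * (σ * τ)) + t (σ * τ⁻¹ * s⁻¹) := by
    rw [← h.key, ← mul_assoc, h.map_mul_left_comm hg hs hσ hτ, mul_inv_rev, mul_assoc σ τ⁻¹]
  have h6 : T * t (σ * τ⁻¹) = t (s * (σ * τ⁻¹)) + t (σ * τ⁻¹ * s⁻¹) := by
    rw [← hT, mul_comm, ← h.key, h.map_mul_comm s]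
  linear_combination h1 + h2 - h3 + β * h4 + β * h5 + β * T * h2 + β * h6 +
    t σ * t τ * hβ + β * (t (σ * τ⁻¹ * s⁻¹) + t (s * (σ * τ)) + t (s * (σ * τ⁻¹))) *
      CharTwo.two_eq_zero (R := B) + t (σ * τ⁻¹) * CharTwo.two_eq_zero (R := B)

/-- The character. -/
theorem exists_char (hu : IsUnit T) : ∃ a : H →* Bˣ,
    (∀ σ : H, (a σ : B) + ↑(a σ)⁻¹ = t σ) ∧
      (∀ σ : H, t (s * σ) = T → t σ = 0 → a σ = 1) ∧ ((a ⟨s, hs⟩ : Bˣ) : B) = T + β := by
  obtain ⟨v, rfl⟩ := hu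
  let f : H →* B :=
    { toFun := fun σ => (t (s * σ) + β * t σ) * ↑v⁻¹
      map_one' := by simp [h.map_one, hT]
      map_mul' := fun σ τ => by
        show (t (s * ((σ : G) * τ)) + β * t ((σ : G) * τ)) * ↑v⁻¹ = _
        linear_combination (-(↑v⁻¹ : B) * ↑v⁻¹) * h.char_mul hg hs hT hβ σ.2 τ.2 +
          ((↑v⁻¹ : B) * (t (s * ((σ : G) * τ)) + β * t ((σ : G) * τ))) *
            (v.mul_inv).symm }
  refine ⟨f.toHomUnits, fun σ => ?_, fun σ h1 h2 => ?_, ?_⟩
  · rw [← MonoidHom.map_inv, MonoidHom.coe_toHomUnits, MonoidHom.coe_toHomUnits]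
    show (t (s * σ) + β * t σ) * ↑v⁻¹ + (t (s * (σ : G)⁻¹) + β * t (σ : G)⁻¹) * ↑v⁻¹ = _
    have h3 : t (s * σ) + t (s * (σ : G)⁻¹) = ↑v * t σ := by rw [h.key, hT]
    rw [h.map_inv]
    linear_combination (↑v⁻¹ : B) * h3 + t σ * v.mul_inv +
      (β * t σ * ↑v⁻¹) * CharTwo.two_eq_zero (R := B)
  · refine Units.ext ?_
    rw [MonoidHom.coe_toHomUnits, Units.val_one]
    show (t (s * σ) + β * t σ) * ↑v⁻¹ = 1
    rw [h1, h2, mul_zero, add_zero, v.mul_inv]
  · rw [MonoidHom.coe_toHomUnits]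
    show (t (s * s) + β * t s) * ↑v⁻¹ = _
    rw [h.map_sq, hT]
    linear_combination ((v : B) + β) * v.mul_inv

end TraceLike

section Local

variable [IsLocalRing B]

/-- A unit with the same `x + x⁻¹` as `u` is `u` or `u⁻¹`. -/
theorem eq_or_eq_inv_of_add_inv_eq [CharP B 2] {u v : Bˣ} (e : (v : B) + ↑v⁻¹ = u + ↑u⁻¹)
    (hu : IsUnit ((u : B) + ↑u⁻¹)) : v = u ∨ v = u⁻¹ := by
  have h0 : ((v : B) - u) * ((v : B) - ↑u⁻¹) = 0 := by
    linear_combination (v : B) * e - v.mul_inv + u.mul_inv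
  by_cases hvu : IsUnit ((v : B) - u)
  · exact Or.inr (Units.ext (sub_eq_zero.mp (hvu.mul_right_eq_zero.mp h0)))
  · have hvu' : IsUnit ((v : B) - ↑u⁻¹) := by
      by_contra hne
      refine IsLocalRing.nonunits_add (show ((v : B) - u) ∈ nonunits B from hvu)
        (show ((v : B) - ↑u⁻¹) ∈ nonunits B from hne) ?_
      convert hu.neg using 1
      linear_combination (v : B) * CharTwo.two_eq_zero (R := B)
    exact Or.inl (Units.ext (sub_eq_zero.mp (hvu'.mul_left_eq_zero.mp h0)))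

/-- If `v + v⁻¹` is a unit and `u + u⁻¹` is not, `u v` has a unit `x + x⁻¹`. -/
theorem isUnit_mul_add_inv [CharP B 2] {u v : Bˣ} (hu : ¬ IsUnit ((u : B) + ↑u⁻¹))
    (hv : IsUnit ((v : B) + ↑v⁻¹)) : IsUnit ((↑(u * v) : B) + ↑(u * v)⁻¹) := by
  have h1 : ¬ IsUnit ((u : B) - 1) := fun h1 => hu (by
    have e : ((u : B) - 1) * ((u : B) - 1) = u * ((u : B) + ↑u⁻¹) := by
      linear_combination -(u.mul_inv) - (u : B) * CharTwo.two_eq_zero (R := B)
    exact isUnit_of_mul_isUnit_right (e ▸ h1.mul h1))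
  by_contra hne
  have h2 : ((u : B) - 1) * ((v : B) - ↑(u * v)⁻¹) ∈ nonunits B :=
    fun h => h1 (isUnit_of_mul_isUnit_left h)
  refine IsLocalRing.nonunits_add (show _ ∈ nonunits B from hne) h2 ?_
  convert hv using 1
  rw [mul_inv, Units.val_mul, Units.val_mul]
  linear_combination (-(↑v⁻¹ : B)) * u.mul_inv + ((u : B) * v - v + (↑u⁻¹ - 1) * ↑v⁻¹) * CharTwo.two_eq_zero (R := B)

/-- `x + x⁻¹` is a unit when it is `1` up to a nilpotent. -/
theorem isUnit_add_inv_of_cube_root [CharP B 2] {c u : Bˣ} (hc : (c : B) * c + c + 1 = 0) {k : ℕ}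
    (hu : u ^ 2 ^ k = 1) : IsUnit ((↑(c * u) : B) + ↑(c * u)⁻¹) := by
  have : Fact (Nat.Prime 2) := ⟨Nat.prime_two⟩
  have hnil : IsNilpotent ((u : B) - 1) := ⟨2 ^ k, by
    rw [sub_pow_char_pow, one_pow, ← Units.val_pow_eq_pow_val, hu, Units.val_one, sub_self]⟩
  have h1 : ¬ IsUnit ((u : B) - 1) := fun h => not_isUnit_zero (M₀ := B)
    (by obtain ⟨n, hn⟩ := hnil; exact hn ▸ h.pow n)
  have hc1 : (c : B) + ↑c⁻¹ = 1 := by
    linear_combination (↑c⁻¹ : B) * hc - (c : B) * c.mul_inv - c.mul_inv -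
      CharTwo.two_eq_zero (R := B)
  by_contra hne
  have h2 : ((u : B) - 1) * (↑(c * u)⁻¹ - (c : B)) ∈ nonunits B :=
    fun h => h1 (isUnit_of_mul_isUnit_left h)
  refine IsLocalRing.nonunits_add (show _ ∈ nonunits B from hne) h2 ?_
  convert isUnit_one (M := B) using 1
  rw [mul_inv, Units.val_mul, Units.val_mul]
  linear_combination hc1 + (↑c⁻¹ : B) * u.mul_inv

end Local

end Fermat.Agent.Two.Class

end
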