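import Fermat.Agent.Two.Interface
import Fermat.Prelude.Def_CuspForm_HeckeAlgebra

/-!
# The seed on the classical Hecke algebra

`SeedHom W` is a character in characteristic two of the classical Hecke algebra of level
`badLevel W`.  At a prime inert in `quadField W` it is zero, at a split prime with odd trace it is
`c [I] + (c [I])⁻¹`, with `c` a root of `c² + c + 1` and `[I]` the image of a prime above it in the
`2`-part of the class group.
-/

set_option autoImplicit false

noncomputable section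

namespace Fermat.Agent.Two

instance neZero_badLevel (W : WeierstrassCurve ℤ) : NeZero (badLevel W) :=
  ⟨(badLevel_pos W).ne'⟩

/-- The index of the `2`-part in the class group of `quadField W`. -/
def classOdd (W : WeierstrassCurve ℤ) : ℕ :=
  Nat.card (ClassGroup (NumberField.RingOfIntegers (quadField W))) / classTwo W

/-- The seed on the classical Hecke algebra. -/
def SeedHom (W : WeierstrassCurve ℤ) : Prop :=
  ∃ (B : Type) (_ : CommRing B) (_ : IsLocalRing B) (_ : CharP B 2)
    (κ : ClassGroup (NumberField.RingOfIntegers (quadField W)) →* Bˣ) (S : Finset ℕ)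
    (θ : CuspForm.heckeAlgebra (badLevel W) 2 (↑S : Set ℕ) →+* B),
    2 ∈ S ∧ (∀ q ∈ S, q = 2 ∨ q ∣ badLevel W) ∧ (∀ x, κ x = 1 ↔ x ^ classOdd W = 1) ∧
    ∀ (ℓ : ℕ) (hℓ : ℓ.Prime) (hℓN : ¬ ℓ ∣ badLevel W) (hℓS : ℓ ∉ (↑S : Set ℕ)),
      (¬ IsSquare (W.Δ : ZMod ℓ) → θ (CuspForm.heckeAlgebra.T hℓ hℓN hℓS) = 0) ∧
      ((2 : ℤ) ∣ W.apOfModel ℓ → ¬ IsUnit (θ (CuspForm.heckeAlgebra.T hℓ hℓN hℓS))) ∧
      (IsSquare (W.Δ : ZMod ℓ) → ¬ (2 : ℤ) ∣ W.apOfModel ℓ →
        ∀ I : nonZeroDivisors (Ideal (NumberField.RingOfIntegers (quadField W))),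
          (I : Ideal (NumberField.RingOfIntegers (quadField W))).IsPrime →
          (ℓ : NumberField.RingOfIntegers (quadField W)) ∈
            (I : Ideal (NumberField.RingOfIntegers (quadField W))) →
          ∃ c : Bˣ, (c : B) * c + c + 1 = 0 ∧
            θ (CuspForm.heckeAlgebra.T hℓ hℓN hℓS) =
              ↑(c * κ (ClassGroup.mk0 I)) + ↑(c * κ (ClassGroup.mk0 I))⁻¹)

end Fermat.Agent.Two

end
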